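/-
GATE-Z / AUX23 (helper18): the VALUE / RESIDUE-DISC dictionary of `GH/Disc/Values.lean` (helper48),
re-based on an ARBITRARY place map `r : Place K F → Place k Ft` satisfying the divisor formula
`r_* (div y) = div (red y)` (`IsRedMap R r`) instead of the L-space map `rOf H` of an
`LSpaceHyp R g c`.  Everything in `Values` from (Z') to (C) only uses the fibre formula, so the
proofs are verbatim.  Use: the descended place map at level `p` over `A | 2, 3` (no `LSpaceHyp`
there), and uniformly `r := rOf H` (`isRedMap_rOf`) wherever an `LSpaceHyp` is available.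

* `IsRedMap R r`, `discR r Q`, `OdiscR R r Q`, `isRedMap_rOf`;
* `ord_red_eq_sum` (fibre formula), `exists_eq_of_ord_pos`, `exists_eq_of_ord_neg`;
* `odisc_*` (subring), (Z') `ord_le_ord_red`, (I) `valueAt_mem_A`, (V) `valueAt_red`,
  (U) `inv_mem_Odisc`, (C) `valuation_lt_one_of_ord_red_pos`, `param_ord_sub`, `param_existsUnique`,
  `chartPt_of_param`.
-/
import Mathlib
import Fermat.Agent.GH.Disc.Values

set_option autoImplicit false

noncomputable section

open AlgebraicCurve

namespace Fermat.Agent.GZ.Aux23.ValuesR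

open Fermat.Agent.RRh45 Fermat.Agent.GJ.S37MinDiv Fermat.Agent.GJ.J1 Fermat.Agent.GJ.S37LSpace
  Fermat.Agent.GJ.S37ROfSurj Fermat.Agent.S24 Fermat.Agent.GH
open Fermat.Agent.GH.Disc (valueAt_iff_ord valueAt_iff_mem valueAt_mem valueAt_const valueAt_add
  valueAt_neg valueAt_sub valueAt_mul valueAt_pow valueAt_unique valueAt_zero_iff exists_valueAt
  constRw coe_constRw red_constRw coe_ne_zero_of_red_ne_zero exists_inv_of_not_mem_A
  res_eq_zero_iff)

variable {K F k Ft : Type*} [Field K] [Field F] [Algebra K F] [Field k] [Field Ft] [Algebra k Ft]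
variable {R : RedData K F k Ft}

/-- `r` is a place reduction map for the reduction datum `R`: `r_* (div y) = div (red y)` for
every `y ∈ Rw` with nonzero reduction. -/
def IsRedMap (R : RedData K F k Ft) (r : Place K F → Place k Ft) : Prop :=
  ∀ y : R.Rw, R.red y ≠ 0 → ∀ Dy : Divisor K F, (∀ P : Place K F, Dy P = P.ord (y : F)) →
    ∀ Q : Place k Ft, Finsupp.mapDomain r Dy Q = Q.ord (R.red y)

/-- the residue disc of the special place `Q` for the place map `r`. -/
def discR (r : Place K F → Place k Ft) (Q : Place k Ft) : Set (Place K F) := {P | r P = Q}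

/-- Gauss-integral functions without pole on the residue disc of `Q`. -/
def OdiscR (R : RedData K F k Ft) (r : Place K F → Place k Ft) (Q : Place k Ft) : Set F :=
  {e | e ∈ R.Rw ∧ ∀ P ∈ discR r Q, e ∈ P.toValuationSubring}

section OfLSpace

variable {g c : ℤ}
variable [FiniteResidues K F] [HasPrincipalDivisors K F] [Nonempty (Place K F)]
variable [FiniteResidues k Ft] [HasPrincipalDivisors k Ft] [Nonempty (Place k Ft)]
variable [Infinite k]

/-- the L-space place map is a place reduction map. -/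
theorem isRedMap_rOf (H : LSpaceHyp R g c) : IsRedMap R (rOf H) :=
  fun _ hy _ hDy Q => mapDomain_rOf_principal H hy hDy Q

theorem discR_rOf (H : LSpaceHyp R g c) (Q : Place k Ft) : discR (rOf H) Q = disc H Q := rfl

theorem odiscR_rOf (H : LSpaceHyp R g c) (Q : Place k Ft) : OdiscR R (rOf H) Q = Odisc H Q := rfl

end OfLSpace

variable {r : Place K F → Place k Ft} {Q : Place k Ft}

/-! #### `Odisc` is a subring -/

theorem odisc_const (r : Place K F → Place k Ft) (Q : Place k Ft) (a : R.A) :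
    algebraMap K F (a : K) ∈ OdiscR R r Q :=
  ⟨(R.mem_A_iff a).1 a.2, fun P _ => P.algebraMap_mem' _⟩

theorem odisc_zero (r : Place K F → Place k Ft) (Q : Place k Ft) : (0 : F) ∈ OdiscR R r Q :=
  ⟨zero_mem _, fun _ _ => zero_mem _⟩

theorem odisc_one (r : Place K F → Place k Ft) (Q : Place k Ft) : (1 : F) ∈ OdiscR R r Q :=
  ⟨one_mem _, fun _ _ => one_mem _⟩

theorem odisc_add {e f : F} (he : e ∈ OdiscR R r Q) (hf : f ∈ OdiscR R r Q) : e + f ∈ OdiscR R r Q :=
  ⟨add_mem he.1 hf.1, fun P hP => add_mem (he.2 P hP) (hf.2 P hP)⟩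

theorem odisc_sub {e f : F} (he : e ∈ OdiscR R r Q) (hf : f ∈ OdiscR R r Q) : e - f ∈ OdiscR R r Q :=
  ⟨sub_mem he.1 hf.1, fun P hP => sub_mem (he.2 P hP) (hf.2 P hP)⟩

theorem odisc_neg {e : F} (he : e ∈ OdiscR R r Q) : -e ∈ OdiscR R r Q :=
  ⟨neg_mem he.1, fun P hP => neg_mem (he.2 P hP)⟩

theorem odisc_mul {e f : F} (he : e ∈ OdiscR R r Q) (hf : f ∈ OdiscR R r Q) : e * f ∈ OdiscR R r Q :=
  ⟨mul_mem he.1 hf.1, fun P hP => mul_mem (he.2 P hP) (hf.2 P hP)⟩

theorem odisc_pow {e : F} (he : e ∈ OdiscR R r Q) (n : ℕ) : e ^ n ∈ OdiscR R r Q :=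
  ⟨pow_mem he.1 n, fun P hP => pow_mem (he.2 P hP) n⟩


/-- **fibre formula**: `ord_Q (red y) = ∑_{P ↦ Q} ord_P y`. -/
theorem ord_red_eq_sum [DecidableEq (Place k Ft)] (hr : IsRedMap R r) {y : R.Rw}
    (hy : R.red y ≠ 0) {Dy : Divisor K F} (hDy : ∀ P : Place K F, Dy P = P.ord (y : F))
    (Q : Place k Ft) :
    Q.ord (R.red y) = ∑ P ∈ Dy.support.filter (fun P => r P = Q), P.ord (y : F) := by
  rw [← hr y hy Dy hDy Q, mapDomain_apply_eq_sum]
  exact Finset.sum_congr rfl fun P _ => hDy P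

variable [HasPrincipalDivisors K F]

/-- a zero of `red y` is the image of a zero of `y`. -/
theorem exists_eq_of_ord_pos (hr : IsRedMap R r) {y : R.Rw} (hy : R.red y ≠ 0)
    {Q : Place k Ft} (hQ : 0 < Q.ord (R.red y)) :
    ∃ P : Place K F, 0 < P.ord (y : F) ∧ r P = Q := by
  classical
  have hy0 : (y : F) ≠ 0 := fun h => hy (by rw [show y = 0 from Subtype.ext h, map_zero])
  obtain ⟨Dy, hDy, -⟩ := HasPrincipalDivisors.exists_divisor (K := K) (y : F) hy0
  rw [ord_red_eq_sum hr hy hDy Q] at hQ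
  by_contra hcon
  push Not at hcon
  have : ∑ P ∈ Dy.support.filter (fun P => r P = Q), P.ord (y : F) ≤ 0 :=
    Finset.sum_nonpos fun P hP => by
      by_contra hpos
      exact hcon P (not_le.mp hpos) (Finset.mem_filter.mp hP).2
  omega

/-- a pole of `red y` is the image of a pole of `y`. -/
theorem exists_eq_of_ord_neg (hr : IsRedMap R r) {y : R.Rw} (hy : R.red y ≠ 0)
    {Q : Place k Ft} (hQ : Q.ord (R.red y) < 0) :
    ∃ P : Place K F, P.ord (y : F) < 0 ∧ r P = Q := by
  classical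
  have hy0 : (y : F) ≠ 0 := fun h => hy (by rw [show y = 0 from Subtype.ext h, map_zero])
  obtain ⟨Dy, hDy, -⟩ := HasPrincipalDivisors.exists_divisor (K := K) (y : F) hy0
  rw [ord_red_eq_sum hr hy hDy Q] at hQ
  by_contra hcon
  push Not at hcon
  have : 0 ≤ ∑ P ∈ Dy.support.filter (fun P => r P = Q), P.ord (y : F) :=
    Finset.sum_nonneg fun P hP => by
      by_contra hneg
      exact hcon P (not_le.mp hneg) (Finset.mem_filter.mp hP).2
  omega

/-- a place map satisfying the divisor formula is surjective. -/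
theorem surjective_of_isRedMap (hr : IsRedMap R r) : Function.Surjective r := by
  intro Q
  obtain ⟨π, hπ⟩ := IsDiscreteValuationRing.exists_irreducible Q.toValuationSubring
  have hord : Q.ord (π : Ft) = 1 := Q.ord_coe_irreducible hπ
  obtain ⟨y, hy⟩ := R.red_surjective (π : Ft)
  have hπ0 : (π : Ft) ≠ 0 := fun h => by rw [h, Place.ord_zero] at hord; omega
  have hy0 : R.red y ≠ 0 := by rw [hy]; exact hπ0
  obtain ⟨P, -, hP⟩ := exists_eq_of_ord_pos hr hy0 (Q := Q) (by rw [hy, hord]; exact one_pos)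
  exact ⟨P, hP⟩

variable (hr : IsRedMap R r)
include hr

/-! #### (Z'), (I), (V), (U) -/

/-- **(Z')** on the disc of `Q`, `ord_P e ≤ ord_Q (red e)` for `e ∈ OdiscR R r Q` with `red e ≠ 0`. -/
theorem ord_le_ord_red {e : F} (he : e ∈ OdiscR R r Q) (hred : R.red ⟨e, he.1⟩ ≠ 0)
    {P : Place K F} (hP : P ∈ discR r Q) : P.ord e ≤ Q.ord (R.red ⟨e, he.1⟩) := by
  classical
  have hy0 : e ≠ 0 := coe_ne_zero_of_red_ne_zero (y := ⟨e, he.1⟩) hred
  obtain ⟨Dy, hDy, -⟩ := HasPrincipalDivisors.exists_divisor (K := K) e hy0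
  rw [ord_red_eq_sum hr (y := ⟨e, he.1⟩) hred hDy Q]
  have hnn : ∀ P' ∈ Dy.support.filter (fun P => r P = Q), 0 ≤ P'.ord e := fun P' hP' =>
    (PlaceB.ord_nonneg_iff P' hy0).mpr (he.2 P' (Finset.mem_filter.mp hP').2)
  by_cases hmem : P ∈ Dy.support
  · exact Finset.single_le_sum hnn (Finset.mem_filter.mpr ⟨hmem, hP⟩)
  · have h0 : P.ord e = 0 := by rw [← hDy P]; exact Finsupp.notMem_support_iff.mp hmem
    rw [h0]; exact Finset.sum_nonneg hnn

/-- **(I) max modulus**: values on the disc of a function of `OdiscR R r Q` lie in `R.A`. -/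
theorem valueAt_mem_A {e : F} (he : e ∈ OdiscR R r Q) {P : Place K F} (hP : P ∈ discR r Q) {a : K}
    (ha : ValueAt P e a) : a ∈ R.A := by
  by_contra hA
  obtain ⟨u, hu, hured⟩ := exists_inv_of_not_mem_A (R := R) hA
  have ha0 : a ≠ 0 := fun h => hA (by rw [h]; exact R.A.zero_mem)
  have hx0 : algebraMap K F a ≠ 0 := by simpa using ha0
  set y : R.Rw := ⟨e, he.1⟩ with hy
  set y' : R.Rw := 1 - u * y with hy'
  have hred : R.red y' = 1 := by rw [hy', map_sub, map_one, map_mul, hured, zero_mul, sub_zero]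
  have hcoe : (y' : F) = -(algebraMap K F a)⁻¹ * (e - algebraMap K F a) := by
    have : (y' : F) = 1 - (u : F) * e := rfl
    rw [this, hu]; field_simp; ring
  have hmem' : (y' : F) ∈ OdiscR R r Q := by
    refine ⟨y'.2, fun P' hP' => ?_⟩
    have : (y' : F) = 1 - (algebraMap K F a⁻¹) * e := by
      have h1 : (y' : F) = 1 - (u : F) * e := rfl
      rw [h1, hu, map_inv₀]
    rw [this]
    exact sub_mem (one_mem _) (mul_mem (P'.algebraMap_mem' _) (he.2 P' hP'))
  have hle := ord_le_ord_red (R := R) (r := r) (Q := Q) hr hmem' (by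
    show R.red y' ≠ 0
    rw [hred]; exact one_ne_zero) hP
  have hle' : P.ord (y' : F) ≤ Q.ord (R.red y') := hle
  rw [hred, Place.ord_one] at hle'
  rw [valueAt_iff_ord] at ha
  rcases ha with h | h
  · apply hA
    rw [R.mem_A_iff, ← sub_eq_zero.mp h]; exact he.1
  · have hne : e - algebraMap K F a ≠ 0 := by
      intro h0; rw [h0, Place.ord_zero] at h; exact lt_irrefl _ h
    have hinv : -(algebraMap K F a)⁻¹ ≠ 0 := neg_ne_zero.mpr (inv_ne_zero hx0)
    rw [hcoe, P.ord_mul hinv hne, PlaceB.ord_neg, Place.ord_inv, PlaceB.ord_algebraMap P ha0] at hle'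
    omega

/-- **(V) evaluation commutes with reduction.** -/
theorem valueAt_red {e : F} (he : e ∈ OdiscR R r Q) {P : Place K F} (hP : P ∈ discR r Q) {a : K}
    (ha : ValueAt P e a) :
    ValueAt Q (R.red ⟨e, he.1⟩) (R.res ⟨a, valueAt_mem_A hr he hP ha⟩) := by
  have haA := valueAt_mem_A hr he hP ha
  set y : R.Rw := ⟨e, he.1⟩ with hy
  set z : R.Rw := y - constRw R ⟨a, haA⟩ with hz
  have hzred : R.red z = R.red y - algebraMap k Ft (R.res ⟨a, haA⟩) := by
    rw [hz, map_sub, red_constRw]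
  have hzcoe : (z : F) = e - algebraMap K F a := rfl
  rw [valueAt_iff_ord]
  by_cases h0 : R.red z = 0
  · left; rw [← hzred]; exact h0
  · right
    rw [← hzred]
    have hzmem : (z : F) ∈ OdiscR R r Q := by
      rw [hzcoe]; exact odisc_sub he (odisc_const r Q ⟨a, haA⟩)
    have hle : P.ord (z : F) ≤ Q.ord (R.red z) := ord_le_ord_red (R := R) (r := r) (Q := Q) hr hzmem h0 hP
    have hz0 := coe_ne_zero_of_red_ne_zero h0
    rw [valueAt_iff_ord] at ha
    rcases ha with h | h
    · exact absurd (hzcoe ▸ h) hz0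
    · rw [← hzcoe] at h; omega

/-- **(U) units**: if the reduction of `e ∈ OdiscR R r Q` is a unit at `Q`, then `e⁻¹ ∈ OdiscR R r Q`. -/
theorem inv_mem_Odisc {e : F} (he : e ∈ OdiscR R r Q) (hred : R.red ⟨e, he.1⟩ ≠ 0)
    (hord : Q.ord (R.red ⟨e, he.1⟩) = 0) : e⁻¹ ∈ OdiscR R r Q := by
  have he0 : e ≠ 0 := coe_ne_zero_of_red_ne_zero (y := ⟨e, he.1⟩) hred
  refine ⟨?_, fun P hP => ?_⟩
  · -- `e` is a unit of `Rw`
    have hnm : (⟨e, he.1⟩ : R.Rw) ∉ IsLocalRing.maximalIdeal R.Rw := fun h =>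
      hred ((R.red_eq_zero_iff _).mpr h)
    rw [IsLocalRing.mem_maximalIdeal, mem_nonunits_iff, not_not] at hnm
    obtain ⟨v, hv⟩ := hnm.exists_right_inv
    have h2 : e * (v : F) = 1 := congrArg Subtype.val hv
    rw [← eq_inv_of_mul_eq_one_right h2]; exact v.2
  · have h1 : 0 ≤ P.ord e := (PlaceB.ord_nonneg_iff P he0).mpr (he.2 P hP)
    have h2 := ord_le_ord_red (R := R) (r := r) (Q := Q) hr he hred hP
    rw [hord] at h2
    have h3 : P.ord e⁻¹ = 0 := by rw [Place.ord_inv]; omega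
    exact (PlaceB.ord_nonneg_iff P (inv_ne_zero he0)).mp h3.ge

/-! #### (C) parameters -/

/-- values on the disc of a function in `OdiscR R r Q` whose reduction vanishes at `Q` lie in the
maximal ideal of `R.A`. -/
theorem valuation_lt_one_of_ord_red_pos {t : F} (ht : t ∈ OdiscR R r Q)
    (hred : 0 < Q.ord (R.red ⟨t, ht.1⟩)) {P : Place K F} (hP : P ∈ discR r Q) {a : K}
    (ha : ValueAt P t a) : R.A.valuation a < 1 := by
  have h1 := valueAt_red hr ht hP ha
  have h2 : ValueAt Q (R.red ⟨t, ht.1⟩) 0 := (valueAt_zero_iff Q _).mpr (Or.inr hred)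
  have h3 := valueAt_unique h1 h2
  exact (res_eq_zero_iff (R := R) ⟨a, valueAt_mem_A hr ht hP ha⟩).mp h3

/-- **(C)** for a parameter `t` (in `OdiscR R r Q`, reduction a uniformizer at `Q`) and `a` in the
maximal ideal of `R.A`: there is a point `P` of the disc where `t - a` has a SIMPLE zero, and
`t - a` has no other zero on the disc. -/
theorem param_ord_sub {t : F} (ht : t ∈ OdiscR R r Q) (hred : Q.ord (R.red ⟨t, ht.1⟩) = 1)
    {a : K} (ha : R.A.valuation a < 1) :
    ∃ P : Place K F, P ∈ discR r Q ∧ P.ord (t - algebraMap K F a) = 1 ∧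
      ∀ P' : Place K F, P' ∈ discR r Q → P' ≠ P → P'.ord (t - algebraMap K F a) = 0 := by
  classical
  have haA : a ∈ R.A := (R.A.valuation_le_one_iff a).mp ha.le
  have hres : R.res ⟨a, haA⟩ = 0 := (res_eq_zero_iff (R := R) ⟨a, haA⟩).mpr ha
  set y : R.Rw := ⟨t, ht.1⟩ with hy
  set z : R.Rw := y - constRw R ⟨a, haA⟩ with hz
  have hzred : R.red z = R.red y := by rw [hz, map_sub, red_constRw, hres, map_zero, sub_zero]
  have hzcoe : (z : F) = t - algebraMap K F a := rfl
  have hy0red : R.red y ≠ 0 := by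
    intro h; rw [h, Place.ord_zero] at hred; omega
  have hz0red : R.red z ≠ 0 := by rw [hzred]; exact hy0red
  have hz0 := coe_ne_zero_of_red_ne_zero hz0red
  have hzmem : (z : F) ∈ OdiscR R r Q := by
    rw [hzcoe]; exact odisc_sub ht (odisc_const r Q ⟨a, haA⟩)
  obtain ⟨Dz, hDz, -⟩ := HasPrincipalDivisors.exists_divisor (K := K) (z : F) hz0
  have hsum := ord_red_eq_sum hr hz0red hDz Q
  rw [hzred, hred] at hsum
  set S := Dz.support.filter (fun P => r P = Q) with hS
  have hnn : ∀ P' ∈ S, 0 ≤ P'.ord (z : F) := fun P' hP' =>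
    (PlaceB.ord_nonneg_iff P' hz0).mpr (hzmem.2 P' (Finset.mem_filter.mp hP').2)
  have hpos : ∀ P' ∈ S, 1 ≤ P'.ord (z : F) := fun P' hP' => by
    have h1 := hnn P' hP'
    have h2 : P'.ord (z : F) ≠ 0 := by
      rw [← hDz P']; exact Finsupp.mem_support_iff.mp (Finset.mem_filter.mp hP').1
    omega
  have hne : S.Nonempty := by
    by_contra hemp
    rw [Finset.not_nonempty_iff_eq_empty] at hemp
    rw [hemp, Finset.sum_empty] at hsum
    omega
  obtain ⟨P₀, hP₀⟩ := hne
  have huniq : ∀ P' ∈ S, P' = P₀ := by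
    intro P' hP'
    by_contra hne'
    have hsub : ({P₀, P'} : Finset (Place K F)) ⊆ S := by
      intro x hx
      rcases Finset.mem_insert.mp hx with rfl | hx
      · exact hP₀
      · rw [Finset.mem_singleton.mp hx]; exact hP'
    have h1 := Finset.sum_le_sum_of_subset_of_nonneg (f := fun P => P.ord (z : F)) hsub
      (fun x hx _ => hnn x hx)
    rw [Finset.sum_pair (Ne.symm hne')] at h1
    have h2 := hpos P₀ hP₀
    have h3 := hpos P' hP'
    omega
  have hord1 : P₀.ord (z : F) = 1 := by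
    have : ∑ P ∈ S, P.ord (z : F) = P₀.ord (z : F) := by
      apply Finset.sum_eq_single_of_mem P₀ hP₀
      intro b hb hbne
      exact absurd (huniq b hb) hbne
    rw [← this]; exact hsum.symm
  refine ⟨P₀, (Finset.mem_filter.mp hP₀).2, by rw [← hzcoe]; exact hord1, ?_⟩
  intro P' hP' hne'
  rw [← hzcoe]
  by_contra h0
  have hmem : P' ∈ S := Finset.mem_filter.mpr
    ⟨Finsupp.mem_support_iff.mpr (by rw [hDz P']; exact h0), hP'⟩
  exact hne' (huniq P' hmem)

/-- **(C)** every `a` in the maximal ideal of `R.A` is the value of the parameter `t` at exactly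
one point of the disc. -/
theorem param_existsUnique {t : F} (ht : t ∈ OdiscR R r Q) (hred : Q.ord (R.red ⟨t, ht.1⟩) = 1)
    {a : K} (ha : R.A.valuation a < 1) : ∃! P : Place K F, P ∈ discR r Q ∧ ValueAt P t a := by
  obtain ⟨P, hP, h1, h0⟩ := param_ord_sub hr ht hred ha
  refine ⟨P, ⟨hP, (valueAt_iff_ord P t a).mpr (Or.inr (by rw [h1]; exact one_pos))⟩, ?_⟩
  rintro P' ⟨hP', hv⟩
  by_contra hne
  have h2 := h0 P' hP' hne
  rw [valueAt_iff_ord] at hv
  rcases hv with h | h
  · rw [h, Place.ord_zero] at h1; omega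
  · omega

/-- **`chartPt_of_param`** (ruling 4598 R2): a parameter `t₀ ∈ OdiscR R r Q` whose reduction is a
uniformizer at `Q` has exactly one zero on the disc of `Q`. -/
theorem chartPt_of_param {t₀ : F} (ht : t₀ ∈ OdiscR R r Q) (hred : Q.ord (R.red ⟨t₀, ht.1⟩) = 1) :
    ∃! P : Place K F, P ∈ discR r Q ∧ ValueAt P t₀ 0 :=
  param_existsUnique hr ht hred (by rw [map_zero]; exact zero_lt_one)

end Fermat.Agent.GZ.Aux23.ValuesR

end
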