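/-
GATE-Z / AUX23 LEAF B (helper56; statement = helper18 5922 verbatim): the **fundamental identity
from divisibility**, characteristic free.

`Ft ⊂ Ft'` function fields in one variable over `k`, all places of degree one, every fibre of the
restriction map non-empty.  If `[Ft' : Ft]` divides `∑_{Q' | Q} e(Q'|Q)` for every `Q`, then
`∑_{Q' | Q} e(Q'|Q) = [Ft' : Ft]` for every `Q`.

Proof: take `τ ∈ Ft` with a (simple) zero at `Q`; the zero divisor `Z` of `τ` on `Ft` has degree
`[Ft : k(τ)]`, its pull-back is the zero divisor of `τ` on `Ft'`, of degree `[Ft' : k(τ)]`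
(`GJ.FF.PrincipalOf.degree_eq_finrank_of_zeros`, twice).  The tower law gives
`∑_v Z(v) · n_v = n · ∑_v Z(v)`, `n_v := ∑_{w | v} e(w|v) ≥ n` by divisibility, hence `n_v = n` at
every zero of `τ`.
-/
import Mathlib
import Fermat.Prelude.Def_AlgebraicCurve_DivisorPushPull
import Fermat.Agent.GJ.FF.PrincipalGen
import Fermat.Agent.DS.P4.GenTower

set_option autoImplicit false

noncomputable section

namespace Fermat.Agent.GZ.Aux23

open AlgebraicCurve IntermediateField Fermat.Agent.S24

variable {k Ft Ft' : Type*} [Field k] [Field Ft] [Field Ft'] [Algebra k Ft] [Algebra k Ft']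
  [Algebra Ft Ft'] [IsScalarTower k Ft Ft']

/-- **tower law** through `k(τ) ≃ k(τ')`, `τ' = ` the image of `τ` in `Ft'`. -/
theorem finrank_adjoin_algebraMap (τ : Ft) :
    Module.finrank k⟮algebraMap Ft Ft' τ⟯ Ft'
      = Module.finrank k⟮τ⟯ Ft * Module.finrank Ft Ft' := by
  rw [Module.finrank_mul_finrank k⟮τ⟯ Ft Ft']
  symm
  exact Algebra.finrank_eq_of_equiv_equiv
    (Fermat.Agent.DS.P4.GenTower.adjoinEquiv (IsScalarTower.toAlgHom k Ft Ft') τ).toRingEquiv
    (RingEquiv.refl Ft') (by ext z; rfl)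

variable [Algebra.IsIntegral Ft Ft'] [HasPrincipalDivisors k Ft']

/-- the degree of a divisor as a `Finsupp.sum`. -/
theorem degree_eq_finsuppSum_deg (D : Divisor k Ft) :
    Divisor.degree D = D.sum fun v n => n * (v.deg : ℤ) := by
  simp [Divisor.degree, Finsupp.liftAddHom_apply]

/-- the degree of a pull-back, when all the places upstairs have degree one. -/
theorem degree_pullback_of_deg_one (hdeg' : ∀ Q' : Place k Ft', Q'.deg = 1) (D : Divisor k Ft) :
    Divisor.degree (Divisor.pullback Ft' D)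
      = D.sum fun v n => n * ∑ w ∈ v.fiber Ft', (w.ramificationIndex Ft : ℤ) := by
  induction D using Finsupp.induction with
  | zero => simp
  | single_add v n D hv hn ih =>
    rw [map_add, map_add, ih, Finsupp.sum_add_index' (by intro a; simp)
      (by intro a b c; ring), Finsupp.sum_single_index (by simp)]
    congr 1
    rw [Divisor.pullback_single, map_sum, Finset.mul_sum]
    refine Finset.sum_congr rfl fun w _ => ?_
    rw [Divisor.degree_single, hdeg' w]
    simp

theorem sum_ramificationIndex_eq_of_dvd [FiniteDimensional Ft Ft'] (x₀ : Ft) [IsGen k x₀]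
    (hdeg : ∀ Q : Place k Ft, Q.deg = 1) (hdeg' : ∀ Q' : Place k Ft', Q'.deg = 1)
    (hne : ∀ Q : Place k Ft, (Q.fiber Ft').Nonempty)
    (hdvd : ∀ Q : Place k Ft, (Module.finrank Ft Ft' : ℤ) ∣
      ∑ Q' ∈ Q.fiber Ft', (Q'.ramificationIndex Ft : ℤ))
    (Q : Place k Ft) :
    ∑ Q' ∈ Q.fiber Ft', (Q'.ramificationIndex Ft : ℤ) = (Module.finrank Ft Ft' : ℤ) := by
  classical
  -- `τ` with a simple zero at `Q`
  obtain ⟨ϖ, hϖ⟩ := IsDiscreteValuationRing.exists_irreducible Q.toValuationSubring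
  have hordτ : Q.ord (ϖ : Ft) = 1 := Q.ord_coe_irreducible hϖ
  generalize (ϖ : Ft) = τ at hordτ
  have hτtr : Transcendental k τ :=
    Fermat.Agent.GJ.FF.transcendental_of_ord_pos Q (by rw [hordτ]; exact one_pos)
  have hτ'tr : Transcendental k (algebraMap Ft Ft' τ) :=
    (transcendental_algebraMap_iff (algebraMap Ft Ft').injective).mpr hτtr
  have : IsGen k (algebraMap Ft Ft' x₀) :=
    Fermat.Agent.DS.P4.GenTower.isGen_algebraMap_of_finite x₀
  -- the zero divisor of `τ` downstairs and upstairs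
  have := Fermat.Agent.GJ.FF.finiteResidues (K := k) x₀
  have H := Fermat.Agent.GJ.FF.PrincipalOf.hyp_of_isGen (K := k) x₀
  set Z : Divisor k Ft := Fermat.Agent.GJ.FF.PrincipalOf.zeroDivisor H τ with hZdef
  have hZ : ∀ v : Place k Ft, Z v = max (v.ord τ) 0 := fun v =>
    Fermat.Agent.GJ.FF.PrincipalOf.zeroDivisor_apply H τ v
  have hdegZ : Divisor.degree Z = (Module.finrank k⟮τ⟯ Ft : ℤ) :=
    Fermat.Agent.GJ.FF.PrincipalOf.degree_eq_finrank_of_zeros x₀ hτtr Z hZ
  have hZ' : ∀ w : Place k Ft',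
      Divisor.pullback Ft' Z w = max (w.ord (algebraMap Ft Ft' τ)) 0 := by
    intro w
    rw [Divisor.pullback_apply, hZ, Place.ord_restrict]
    have he : (0 : ℤ) ≤ (w.ramificationIndex Ft : ℤ) := Int.natCast_nonneg _
    rw [mul_max_of_nonneg _ _ he, mul_zero]
  have hdegZ' : Divisor.degree (Divisor.pullback Ft' Z)
      = (Module.finrank k⟮algebraMap Ft Ft' τ⟯ Ft' : ℤ) :=
    Fermat.Agent.GJ.FF.PrincipalOf.degree_eq_finrank_of_zeros (algebraMap Ft Ft' x₀) hτ'tr _ hZ'
  -- compare
  set n : ℤ := (Module.finrank Ft Ft' : ℤ) with hn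
  have h1 : (Z.sum fun v m => m * ∑ w ∈ v.fiber Ft', (w.ramificationIndex Ft : ℤ))
      = (Z.sum fun v m => m * ((v.deg : ℕ) : ℤ)) * n := by
    rw [← degree_pullback_of_deg_one hdeg', ← degree_eq_finsuppSum_deg, hdegZ', hdegZ,
      finrank_adjoin_algebraMap, Nat.cast_mul]
  have hge : ∀ v : Place k Ft, n ≤ ∑ w ∈ v.fiber Ft', (w.ramificationIndex Ft : ℤ) := by
    intro v
    refine Int.le_of_dvd ?_ (hdvd v)
    refine Finset.sum_pos (fun w _ => ?_) (hne v)
    exact_mod_cast w.ramificationIndex_pos (F := Ft)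
  have h2 : ∑ v ∈ Z.support,
      Z v * (∑ w ∈ v.fiber Ft', (w.ramificationIndex Ft : ℤ) - n) = 0 := by
    have : ∀ v ∈ Z.support, Z v * (∑ w ∈ v.fiber Ft', (w.ramificationIndex Ft : ℤ) - n)
        = Z v * (∑ w ∈ v.fiber Ft', (w.ramificationIndex Ft : ℤ))
          - Z v * ((v.deg : ℕ) : ℤ) * n := by
      intro v _
      rw [hdeg v]
      push_cast
      ring
    rw [Finset.sum_congr rfl this, Finset.sum_sub_distrib, ← Finset.sum_mul]
    rw [Finsupp.sum, Finsupp.sum] at h1
    rw [h1, sub_self]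
  have h3 := (Finset.sum_eq_zero_iff_of_nonneg (fun v _ => by
    refine mul_nonneg ?_ (sub_nonneg.mpr (hge v))
    rw [hZ v]
    exact le_max_right _ _)).mp h2
  have hZQ : Z Q = 1 := by rw [hZ Q, hordτ]; rfl
  have hQ : Q ∈ Z.support := by
    rw [Finsupp.mem_support_iff, hZQ]
    exact one_ne_zero
  have h4 := h3 Q hQ
  rw [hZQ, one_mul, sub_eq_zero] at h4
  exact h4

end Fermat.Agent.GZ.Aux23

end
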