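/-
GATE-Z / AUX23 (helper18): the abstract frame of the level descent of a place reduction map.

`F ⊂ F'` function fields over `K`, `Ft ⊂ Ft'` function fields over `k`, reduction data
`R : RedData K F k Ft`, `R' : RedData K F' k Ft'` (GJ/J1/Defs) which are COMPATIBLE: the Gauss
valuation ring of `F` maps into the one of `F'` and the reduction maps commute with the inclusions.
-/
import Mathlib
import Fermat.Agent.GJ.J1.Defs

set_option autoImplicit false

noncomputable section

namespace Fermat.Agent.GZ.Aux23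

open Fermat.Agent.GJ.J1

variable {K F F' k Ft Ft' : Type*} [Field K] [Field F] [Field F'] [Field k] [Field Ft] [Field Ft']
  [Algebra K F] [Algebra K F'] [Algebra F F']
  [Algebra k Ft] [Algebra k Ft'] [Algebra Ft Ft']

/-- compatibility of two reduction data along `F ⊂ F'`, `Ft ⊂ Ft'`. -/
structure RedCompat (R : RedData K F k Ft) (R' : RedData K F' k Ft') : Prop where
  mem : ∀ x : F, x ∈ R.Rw → algebraMap F F' x ∈ R'.Rw
  red : ∀ (x : F) (hx : x ∈ R.Rw),
    R'.red ⟨algebraMap F F' x, mem x hx⟩ = algebraMap Ft Ft' (R.red ⟨x, hx⟩)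

namespace RedCompat

variable {R : RedData K F k Ft} {R' : RedData K F' k Ft'} (hc : RedCompat R R')

/-- the inclusion of the Gauss valuation rings. -/
def incl : R.Rw →+* R'.Rw where
  toFun x := ⟨algebraMap F F' (x : F), hc.mem x x.2⟩
  map_one' := Subtype.ext (map_one _)
  map_mul' _ _ := Subtype.ext (map_mul _ _ _)
  map_zero' := Subtype.ext (map_zero _)
  map_add' _ _ := Subtype.ext (map_add _ _ _)

@[simp] theorem coe_incl (x : R.Rw) : ((hc.incl x : R'.Rw) : F') = algebraMap F F' (x : F) := rfl

theorem red_incl (x : R.Rw) : R'.red (hc.incl x) = algebraMap Ft Ft' (R.red x) :=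
  hc.red x x.2

include hc in
/-- an element of `F` lies in `Rw` as soon as its image lies in `Rw'`. -/
theorem mem_of_mem {x : F} (hx : algebraMap F F' x ∈ R'.Rw) : x ∈ R.Rw := by
  rcases R.Rw.mem_or_inv_mem x with h | h
  · exact h
  · by_cases hx0 : x = 0
    · rw [hx0]; exact zero_mem _
    -- `x⁻¹ ∈ Rw`; if `red x⁻¹ ≠ 0` then `x⁻¹` is a unit of `Rw`
    by_cases hr : R.red ⟨x⁻¹, h⟩ = 0
    · exfalso
      have h1 : R'.red (hc.incl ⟨x⁻¹, h⟩) = 0 := by rw [hc.red_incl, hr, map_zero]
      have h2 : R'.red (hc.incl ⟨x⁻¹, h⟩ * ⟨algebraMap F F' x, hx⟩) = 1 := by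
        have : hc.incl ⟨x⁻¹, h⟩ * ⟨algebraMap F F' x, hx⟩ = 1 := by
          apply Subtype.ext
          show algebraMap F F' x⁻¹ * algebraMap F F' x = 1
          rw [← map_mul, inv_mul_cancel₀ hx0, map_one]
        rw [this, map_one]
      rw [map_mul, h1, zero_mul] at h2
      exact zero_ne_one h2
    · have hu : IsUnit (⟨x⁻¹, h⟩ : R.Rw) := by
        by_contra hnu
        exact hr ((R.red_eq_zero_iff _).mpr (by
          rw [IsLocalRing.mem_maximalIdeal, mem_nonunits_iff]; exact hnu))
      obtain ⟨v, hv⟩ := hu.exists_right_inv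
      have h3 : x⁻¹ * (v : F) = 1 := congrArg Subtype.val hv
      have h4 : (v : F) = x := by
        have := eq_inv_of_mul_eq_one_right h3
        rw [inv_inv] at this
        exact this
      rw [← h4]
      exact v.2

end RedCompat

end Fermat.Agent.GZ.Aux23

end
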