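/-
GATE-Z / AUX23, LEAF A (helper38; statement = helper18 board 5922 VERBATIM):
**the norm commutes with reduction when the residue degree is full.**

`F ⊂ F'`, `Ft ⊂ Ft'` finite, reduction data `R : RedData K F k Ft`, `R' : RedData K F' k Ft'`
compatible (`RedCompat R R'`), and `[F' : F] = [Ft' : Ft]`.  Then for every `z ∈ R'.Rw`:
`Nm_{F'/F} z ∈ R.Rw` and `red (Nm_{F'/F} z) = Nm_{Ft'/Ft} (red' z)`.

Proof: lift a basis `b~` of `Ft' / Ft` to `b_i ∈ R'.Rw`.
* `exists_scale`   : a nonzero finite family of `F` can be divided by a member of largest valuation;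
* `red_sum`        : reduction of an integral combination `∑ c_i b_i`;
* `linearIndependent_lift` : the `b_i` are `F`-independent, hence (count) a basis of `F' / F`;
* `coeff_mem`      : the coordinates of an element of `R'.Rw` lie in `R.Rw`;
* `norm_mem_and_red` : `Algebra.norm_eq_matrix_det` on both sides + `RingHom.map_det`.
-/
import Mathlib
import Fermat.Agent.GZ.Aux23.Frame

set_option autoImplicit false

noncomputable section

namespace Fermat.Agent.GZ.Aux23

open Fermat.Agent.GJ.J1 Module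

variable {K F F' k Ft Ft' : Type*} [Field K] [Field F] [Field F'] [Field k] [Field Ft] [Field Ft']
  [Algebra K F] [Algebra K F'] [Algebra F F']
  [Algebra k Ft] [Algebra k Ft'] [Algebra Ft Ft']

namespace NormRed

/-- a finite family of a field, not identically zero, can be divided by one of its members so that
all quotients lie in a given valuation subring. -/
theorem exists_scale {L : Type*} [Field L] (V : ValuationSubring L) {ι : Type*} [Fintype ι]
    (c : ι → L) (hc : ∃ i, c i ≠ 0) : ∃ i₀, c i₀ ≠ 0 ∧ ∀ i, c i / c i₀ ∈ V := by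
  classical
  obtain ⟨j, hj⟩ := hc
  obtain ⟨i₀, -, hmax⟩ := Finset.exists_max_image (Finset.univ : Finset ι)
    (fun i => V.valuation (c i)) ⟨j, Finset.mem_univ j⟩
  have h0 : c i₀ ≠ 0 := by
    intro h
    have h1 := hmax j (Finset.mem_univ j)
    simp only [h, map_zero] at h1
    exact hj ((map_eq_zero V.valuation).mp (le_antisymm h1 zero_le))
  refine ⟨i₀, h0, fun i => ?_⟩
  rw [← ValuationSubring.valuation_le_one_iff, map_div₀]
  exact div_le_one_of_le₀ (hmax i (Finset.mem_univ i)) zero_le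

variable {R : RedData K F k Ft} {R' : RedData K F' k Ft'} (hc : RedCompat R R')

include hc in
/-- the integral combination `∑ c_i b_i` lies in `R'.Rw` and reduces to `∑ c~_i b~_i`. -/
theorem red_sum {ι : Type*} [Fintype ι] (b : ι → R'.Rw) (c : ι → R.Rw) :
    ∃ h : (∑ i, ((c i : R.Rw) : F) • ((b i : R'.Rw) : F')) ∈ R'.Rw,
      R'.red ⟨_, h⟩ = ∑ i, R.red (c i) • R'.red (b i) := by
  have e : (∑ i, ((c i : R.Rw) : F) • ((b i : R'.Rw) : F')) =
      ((∑ i, hc.incl (c i) * b i : R'.Rw) : F') := by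
    rw [AddSubmonoidClass.coe_finsetSum]
    refine Finset.sum_congr rfl fun i _ => ?_
    rw [Algebra.smul_def]
    rfl
  refine ⟨e ▸ (∑ i, hc.incl (c i) * b i : R'.Rw).2, ?_⟩
  have e' : (⟨_, e ▸ (∑ i, hc.incl (c i) * b i : R'.Rw).2⟩ : R'.Rw) =
      ∑ i, hc.incl (c i) * b i := Subtype.ext e
  rw [e', map_sum]
  refine Finset.sum_congr rfl fun i _ => ?_
  rw [map_mul, hc.red_incl, Algebra.smul_def]

include hc in
/-- the same for coefficients in `F` that happen to lie in `R.Rw`. -/
theorem red_sum' {ι : Type*} [Fintype ι] (b : ι → R'.Rw) (c : ι → F) (hcm : ∀ i, c i ∈ R.Rw) :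
    ∃ h : (∑ i, c i • ((b i : R'.Rw) : F')) ∈ R'.Rw,
      R'.red ⟨_, h⟩ = ∑ i, R.red ⟨c i, hcm i⟩ • R'.red (b i) :=
  red_sum hc b fun i => ⟨c i, hcm i⟩

include hc in
/-- **lifts of a residually independent family are independent.** -/
theorem linearIndependent_lift {ι : Type*} [Fintype ι] (b : ι → R'.Rw)
    (hb : LinearIndependent Ft fun i => R'.red (b i)) :
    LinearIndependent F fun i => ((b i : R'.Rw) : F') := by
  classical
  rw [Fintype.linearIndependent_iff]
  intro c hsum
  by_contra hne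
  push Not at hne
  obtain ⟨i₀, h0, hdiv⟩ := exists_scale R.Rw c hne
  -- the scaled relation
  have hsum' : ∑ i, (c i / c i₀) • ((b i : R'.Rw) : F') = 0 := by
    have : ∑ i, (c i / c i₀) • ((b i : R'.Rw) : F') =
        (c i₀)⁻¹ • ∑ i, c i • ((b i : R'.Rw) : F') := by
      rw [Finset.smul_sum]
      refine Finset.sum_congr rfl fun i _ => ?_
      rw [smul_smul, div_eq_inv_mul]
    rw [this, hsum, smul_zero]
  obtain ⟨h, hred⟩ := red_sum' hc b (fun i => c i / c i₀) hdiv
  have hz : (⟨_, h⟩ : R'.Rw) = 0 := Subtype.ext hsum'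
  rw [hz, map_zero] at hred
  have h1 := (Fintype.linearIndependent_iff.mp hb) (fun i => R.red ⟨c i / c i₀, hdiv i⟩)
    hred.symm i₀
  have h2 : (⟨c i₀ / c i₀, hdiv i₀⟩ : R.Rw) = 1 := Subtype.ext (div_self h0)
  rw [h2, map_one] at h1
  exact one_ne_zero h1

include hc in
/-- **the coordinates of an integral element in a lifted residue basis are integral**, and the
reduction is computed coordinatewise. -/
theorem coeff_mem {ι : Type*} [Fintype ι] (b : ι → R'.Rw)
    (hb : LinearIndependent Ft fun i => R'.red (b i)) (c : ι → F)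
    (hy : (∑ i, c i • ((b i : R'.Rw) : F')) ∈ R'.Rw) : ∀ i, c i ∈ R.Rw := by
  classical
  by_contra hne
  push Not at hne
  obtain ⟨j, hj⟩ := hne
  have hj0 : c j ≠ 0 := fun h => hj (h ▸ zero_mem _)
  obtain ⟨i₀, h0, hdiv⟩ := exists_scale R.Rw c ⟨j, hj0⟩
  -- `c i₀ ∉ Rw`
  have hi₀ : c i₀ ∉ R.Rw := by
    intro h
    apply hj
    have : c j = c j / c i₀ * c i₀ := by field_simp
    rw [this]
    exact mul_mem (hdiv j) h
  -- so `(c i₀)⁻¹` lies in the maximal ideal
  have hinv : (c i₀)⁻¹ ∈ R.Rw := (R.Rw.mem_or_inv_mem (c i₀)).resolve_left hi₀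
  have hmax : (⟨(c i₀)⁻¹, hinv⟩ : R.Rw) ∈ IsLocalRing.maximalIdeal R.Rw := by
    rw [IsLocalRing.mem_maximalIdeal, mem_nonunits_iff]
    intro hu
    obtain ⟨v, hv⟩ := hu.exists_right_inv
    have h3 : (c i₀)⁻¹ * (v : F) = 1 := congrArg Subtype.val hv
    have h4 : (v : F) = c i₀ := by
      have := eq_inv_of_mul_eq_one_right h3
      rw [inv_inv] at this
      exact this
    exact hi₀ (h4 ▸ v.2)
  have hr0 : R.red ⟨(c i₀)⁻¹, hinv⟩ = 0 := (R.red_eq_zero_iff _).mpr hmax
  -- the scaled combination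
  have hsum' : ∑ i, (c i / c i₀) • ((b i : R'.Rw) : F') =
      ((hc.incl ⟨(c i₀)⁻¹, hinv⟩ * ⟨_, hy⟩ : R'.Rw) : F') := by
    have : ∑ i, (c i / c i₀) • ((b i : R'.Rw) : F') =
        (c i₀)⁻¹ • ∑ i, c i • ((b i : R'.Rw) : F') := by
      rw [Finset.smul_sum]
      refine Finset.sum_congr rfl fun i _ => ?_
      rw [smul_smul, div_eq_inv_mul]
    rw [this, Algebra.smul_def]
    rfl
  obtain ⟨h, hred⟩ := red_sum' hc b (fun i => c i / c i₀) hdiv
  have hz : (⟨_, h⟩ : R'.Rw) = hc.incl ⟨(c i₀)⁻¹, hinv⟩ * ⟨_, hy⟩ := Subtype.ext hsum'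
  rw [hz, map_mul, hc.red_incl, hr0, map_zero, zero_mul] at hred
  have h1 := (Fintype.linearIndependent_iff.mp hb) (fun i => R.red ⟨c i / c i₀, hdiv i⟩)
    hred.symm i₀
  have h2 : (⟨c i₀ / c i₀, hdiv i₀⟩ : R.Rw) = 1 := Subtype.ext (div_self h0)
  rw [h2, map_one] at h1
  exact one_ne_zero h1

end NormRed

open NormRed

/-- **LEAF A: the norm commutes with reduction when the residue degree is full.** -/
theorem norm_mem_and_red [FiniteDimensional F F'] [FiniteDimensional Ft Ft']
    {R : RedData K F k Ft} {R' : RedData K F' k Ft'} (hc : RedCompat R R')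
    (hn : Module.finrank F F' = Module.finrank Ft Ft') (z : R'.Rw) :
    ∃ h : Algebra.norm F (z : F') ∈ R.Rw, R.red ⟨_, h⟩ = Algebra.norm Ft (R'.red z) := by
  classical
  -- a residue basis and its lift
  set n := Module.finrank Ft Ft' with hn'
  let bt : Basis (Fin n) Ft Ft' := Module.finBasis Ft Ft'
  choose b hb using fun i => R'.red_surjective (bt i)
  have hbt : LinearIndependent Ft fun i => R'.red (b i) := by
    have : (fun i => R'.red (b i)) = bt := funext hb
    rw [this]
    exact bt.linearIndependent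
  have hli := linearIndependent_lift hc b hbt
  have hcard : Fintype.card (Fin n) = Module.finrank F F' := by
    rw [Fintype.card_fin, hn]
  have hnpos : 0 < n := Module.finrank_pos
  have : Nonempty (Fin n) := ⟨⟨0, hnpos⟩⟩
  let B : Basis (Fin n) F F' := basisOfLinearIndependentOfCardEqFinrank hli hcard
  have hB : ∀ i, B i = ((b i : R'.Rw) : F') := fun i => by
    simp only [B, coe_basisOfLinearIndependentOfCardEqFinrank]
  -- the matrix of multiplication by `z`
  have hcol : ∀ j, (∑ i, B.repr ((z : F') * B j) i • ((b i : R'.Rw) : F')) ∈ R'.Rw := by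
    intro j
    have : (∑ i, B.repr ((z : F') * B j) i • ((b i : R'.Rw) : F')) = (z : F') * B j := by
      conv_rhs => rw [← B.sum_repr ((z : F') * B j)]
      exact Finset.sum_congr rfl fun i _ => by rw [hB i]
    rw [this, hB j]
    exact mul_mem z.2 (b j).2
  have hmem : ∀ i j, B.repr ((z : F') * B j) i ∈ R.Rw := fun i j =>
    coeff_mem hc b hbt (fun i => B.repr ((z : F') * B j) i) (hcol j) i
  let M0 : Matrix (Fin n) (Fin n) R.Rw := fun i j => ⟨B.repr ((z : F') * B j) i, hmem i j⟩
  have hM : Algebra.leftMulMatrix B (z : F') = M0.map (R.Rw.subtype) := by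
    ext i j
    rw [Algebra.leftMulMatrix_eq_repr_mul, Matrix.map_apply]
    rfl
  have hnorm : Algebra.norm F (z : F') = ((M0.det : R.Rw) : F) := by
    rw [Algebra.norm_eq_matrix_det B, hM]
    exact (RingHom.map_det (R.Rw.subtype) M0).symm
  refine ⟨hnorm ▸ M0.det.2, ?_⟩
  have e : (⟨Algebra.norm F (z : F'), hnorm ▸ M0.det.2⟩ : R.Rw) = M0.det := Subtype.ext hnorm
  rw [e, RingHom.map_det, Algebra.norm_eq_matrix_det bt]
  congr 1
  ext i j
  rw [RingHom.mapMatrix_apply, Matrix.map_apply, Algebra.leftMulMatrix_eq_repr_mul]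
  -- reduce the `j`-th column
  obtain ⟨h, hred⟩ := red_sum' hc b (fun i => B.repr ((z : F') * B j) i) (fun i => hmem i j)
  have hz : (⟨_, h⟩ : R'.Rw) = z * b j := by
    apply Subtype.ext
    show (∑ i, B.repr ((z : F') * B j) i • ((b i : R'.Rw) : F')) = (z : F') * (b j : F')
    conv_rhs => rw [← hB j, ← B.sum_repr ((z : F') * B j)]
    exact Finset.sum_congr rfl fun i _ => by rw [hB i]
  rw [hz, map_mul, hb j] at hred
  have hred' : R'.red z * bt j = ∑ i, R.red (M0 i j) • bt i := by
    rw [hred]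
    exact Finset.sum_congr rfl fun i _ => by rw [hb i]
  rw [hred', bt.repr_sum_self]

end Fermat.Agent.GZ.Aux23

end
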