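/-
GATE-Z / AUX23 leaf C (helper47, spec helper18 board 5922): a separating function whose poles are
poles of a chart.

`Ft / k` a function field in one variable over an algebraically closed field, `u` a transcendental
element ("chart"), `Q₁ ≠ Q₂` two places where `u` is regular.  Then there is `x : Ft` with a zero
at `Q₁`, with `x - 1` vanishing at `Q₂`, and regular wherever `u` is regular.

Proof: weak approximation gives `x0` with `x0 ≡ 0` at `Q₁`, `x0 ≡ 1` at `Q₂`, regular on the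
(finite) `u`-fibres of `Q₁`, `Q₂`.  The remaining poles `Q` of `x0` with `u` regular are centred at
`u = c_Q` with `c_Q ≠ u(Q₂)`; multiply by `p(u) / p(u(Q₂))`, `p := ∏ (X - c_Q) ^ m_Q`.
-/
import Fermat.Agent.GJ.FF.PrincipalGen
import Fermat.Agent.S24.DegOne

set_option autoImplicit false

noncomputable section

namespace Fermat.Agent.GZ.Aux23

open AlgebraicCurve Polynomial Fermat.Agent.S24 Fermat.Agent.RR.Bound

variable {k Ft : Type*} [Field k] [Field Ft] [Algebra k Ft]

/-- a polynomial in a function regular at `v` is regular at `v`. -/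
theorem sepChart_aeval_mem (v : Place k Ft) {u : Ft} (hu : u ∈ v.toValuationSubring) (p : k[X]) :
    aeval u p ∈ v.toValuationSubring := by
  have h := PlaceB.coe_aeval v ⟨u, hu⟩ p
  rw [← h]
  exact (aeval (⟨u, hu⟩ : v.toValuationSubring) p).2

/-- `Vle` at level `0` for a polynomial in a regular function. -/
theorem sepChart_vle_aeval (v : Place k Ft) {u : Ft} (hu : u ∈ v.toValuationSubring) (p : k[X]) :
    Vle v (aeval u p) 0 :=
  Vle.of_mem (sepChart_aeval_mem v hu p)

/-- **LEAF C**: a separating function whose poles are poles of the chart `u`. -/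
theorem exists_sep_of_chart {k Ft} [Field k] [Field Ft] [Algebra k Ft] [IsAlgClosed k] (x₀ : Ft) [IsGen k x₀] (u : Ft) (hu : Transcendental k u) (Q₁ Q₂ : Place k Ft) (hne : Q₁ ≠ Q₂) (h1 : 0 ≤ Q₁.ord u) (h2 : 0 ≤ Q₂.ord u) :
    ∃ x : Ft, 0 < Q₁.ord x ∧ 0 < Q₂.ord (x - 1) ∧ ∀ Q : Place k Ft, 0 ≤ Q.ord u → 0 ≤ Q.ord x := by
  classical
  have hgu : IsGen k u := IsGen.of_transcendental x₀ hu
  have hu0 : u ≠ 0 := fun h => hu (h ▸ isAlgebraic_zero)
  -- regularity as membership
  have hmem : ∀ Q : Place k Ft, 0 ≤ Q.ord u → u ∈ Q.toValuationSubring := fun Q h =>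
    (PlaceB.ord_nonneg_iff Q hu0).mp h
  -- centres
  have hcen : ∀ Q : Place k Ft, ∃ c : k, 0 ≤ Q.ord u → 0 < Q.ord (u - algebraMap k Ft c) := by
    intro Q
    by_cases h : 0 ≤ Q.ord u
    · obtain ⟨c, hc⟩ := PlaceB.exists_center Q u (hmem Q h)
      exact ⟨c, fun _ => hc⟩
    · exact ⟨0, fun h' => absurd h' h⟩
  choose c hc using hcen
  -- `u - a ≠ 0`
  have hsub0 : ∀ a : k, u - algebraMap k Ft a ≠ 0 := by
    intro a h
    have : u = algebraMap k Ft a := sub_eq_zero.mp h
    exact hu (this ▸ isAlgebraic_algebraMap a)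
  -- the finite set of places in the `u`-fibres of `Q₁`, `Q₂`
  have hfin1 := Fermat.Agent.GJ.FF.PrincipalOf.finite_support_ord_gen (K := k) x₀
    (u - algebraMap k Ft (c Q₁))
  have hfin2 := Fermat.Agent.GJ.FF.PrincipalOf.finite_support_ord_gen (K := k) x₀
    (u - algebraMap k Ft (c Q₂))
  set S : Finset (Place k Ft) := hfin1.toFinset ∪ hfin2.toFinset with hS
  have hS1 : ∀ Q : Place k Ft, 0 < Q.ord (u - algebraMap k Ft (c Q₁)) → Q ∈ S := by
    intro Q hQ
    rw [hS, Finset.mem_union]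
    left
    rw [Set.Finite.mem_toFinset]
    exact ne_of_gt hQ
  have hS2 : ∀ Q : Place k Ft, 0 < Q.ord (u - algebraMap k Ft (c Q₂)) → Q ∈ S := by
    intro Q hQ
    rw [hS, Finset.mem_union]
    right
    rw [Set.Finite.mem_toFinset]
    exact ne_of_gt hQ
  have hQ1S : Q₁ ∈ S := hS1 Q₁ (hc Q₁ h1)
  have hQ2S : Q₂ ∈ S := hS2 Q₂ (hc Q₂ h2)
  -- weak approximation
  obtain ⟨x0, hx0⟩ := Fermat.Agent.GJ.FF.PrincipalOf.weakApprox' (K := k) (F := Ft) S
    (fun v => if v = Q₂ then 1 else 0) (fun _ => 1)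
  have hx0Q2 : Vle Q₂ (x0 - 1) (-1) := by
    have := hx0 Q₂ hQ2S
    simpa using this
  have hx0Q1 : Vle Q₁ x0 (-1) := by
    have := hx0 Q₁ hQ1S
    simpa [hne] using this
  have hx0S : ∀ v ∈ S, Vle v x0 0 := by
    intro v hv
    by_cases hv2 : v = Q₂
    · subst hv2
      have h1' : Vle v (1 : Ft) 0 := Vle.of_mem (one_mem _)
      have := (hx0Q2.mono (by norm_num : (-1 : ℤ) ≤ 0)).add h1'
      simpa using this
    · have := hx0 v hv
      simp only [hv2, if_false, sub_zero] at this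
      exact this.mono (by norm_num)
  -- `x0 ≠ 0`
  have hx00 : x0 ≠ 0 := by
    intro h
    rw [h, Vle.iff_ord] at hx0Q2
    rcases hx0Q2 with h' | h'
    · have : (1 : Ft) = 0 := by
        have := congrArg Neg.neg h'
        simp at this
      exact one_ne_zero this
    · have h0 : Q₂.ord ((0 : Ft) - 1) = 0 := by
        rw [zero_sub, PlaceB.ord_neg, Place.ord_one]
      rw [h0] at h'
      norm_num at h'
  have hordQ1 : 1 ≤ Q₁.ord x0 := by
    rw [Vle.iff_ord] at hx0Q1
    rcases hx0Q1 with h | h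
    · exact absurd h hx00
    · simpa using h
  -- the bad poles
  have hfin0 := Fermat.Agent.GJ.FF.PrincipalOf.finite_support_ord_gen (K := k) x₀ x0
  set P : Finset (Place k Ft) := hfin0.toFinset.filter (fun Q => Q.ord x0 < 0 ∧ 0 ≤ Q.ord u)
    with hP
  have hPmem : ∀ Q : Place k Ft, Q ∈ P ↔ Q.ord x0 < 0 ∧ 0 ≤ Q.ord u := by
    intro Q
    rw [hP, Finset.mem_filter, Set.Finite.mem_toFinset]
    constructor
    · exact fun h => h.2
    · exact fun h => ⟨ne_of_lt h.1, h⟩
  have hPS : ∀ Q ∈ P, Q ∉ S := by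
    intro Q hQ hQS
    have h1' := ((hPmem Q).mp hQ).1
    have h2' := hx0S Q hQS
    rw [Vle.iff_ord] at h2'
    rcases h2' with h | h
    · exact hx00 h
    · omega
  have hcne : ∀ Q ∈ P, c Q ≠ c Q₂ := by
    intro Q hQ h
    have := hc Q ((hPmem Q).mp hQ).2
    rw [h] at this
    exact hPS Q hQ (hS2 Q this)
  -- the multiplier
  set m : Place k Ft → ℕ := fun Q => (-(Q.ord x0)).toNat with hm
  set p : k[X] := ∏ Q ∈ P, (X - C (c Q)) ^ m Q with hp
  set γ : k := p.eval (c Q₂) with hγ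
  have hγ0 : γ ≠ 0 := by
    rw [hγ, hp, eval_prod]
    rw [Finset.prod_ne_zero_iff]
    intro Q hQ
    rw [eval_pow, eval_sub, eval_X, eval_C]
    exact pow_ne_zero _ (sub_ne_zero.mpr (hcne Q hQ).symm)
  have hγF : algebraMap k Ft γ ≠ 0 := by
    simpa using hγ0
  have hvγ : ∀ Q : Place k Ft, Vle Q (algebraMap k Ft γ)⁻¹ 0 := by
    intro Q
    rw [← map_inv₀]
    exact Vle.algebraMap Q _
  -- `p ≠ 0`, `p(u) ≠ 0`
  have hp0 : p ≠ 0 := by
    rw [hp, Finset.prod_ne_zero_iff]
    intro Q _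
    exact pow_ne_zero _ (X_sub_C_ne_zero _)
  have hA0 : aeval u p ≠ 0 := fun h => hu ⟨p, hp0, h⟩
  have hxne : x0 * aeval u p * (algebraMap k Ft γ)⁻¹ ≠ 0 :=
    mul_ne_zero (mul_ne_zero hx00 hA0) (inv_ne_zero hγF)
  -- `u - c` vanishes to order `≥ 1`
  have hvsub : ∀ Q : Place k Ft, 0 ≤ Q.ord u → Vle Q (u - algebraMap k Ft (c Q)) (-1) := by
    intro Q hQ
    rw [Vle.iff_ord]
    right
    have := hc Q hQ
    omega
  have hzero : 0 < Q₁.ord (x0 * aeval u p * (algebraMap k Ft γ)⁻¹) := by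
    have hv : Vle Q₁ (x0 * aeval u p * (algebraMap k Ft γ)⁻¹) (-1 + 0 + 0) :=
      (hx0Q1.mul (sepChart_vle_aeval Q₁ (hmem Q₁ h1) p)).mul (hvγ Q₁)
    rw [Vle.iff_ord] at hv
    rcases hv with h | h
    · exact absurd h hxne
    · omega
  refine ⟨x0 * aeval u p * (algebraMap k Ft γ)⁻¹, hzero, ?_, ?_⟩
  · -- value `1` at `Q₂`
    obtain ⟨q, hq⟩ : X - C (c Q₂) ∣ p - C γ := X_sub_C_dvd_sub_C_eval
    have hAq : aeval u p - algebraMap k Ft γ = (u - algebraMap k Ft (c Q₂)) * aeval u q := by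
      have := congrArg (aeval u) hq
      simpa using this
    have hid : x0 * aeval u p * (algebraMap k Ft γ)⁻¹ - 1 =
        ((x0 - 1) * aeval u p + (u - algebraMap k Ft (c Q₂)) * aeval u q) *
          (algebraMap k Ft γ)⁻¹ := by
      rw [← hAq]
      field_simp
      ring
    have hmQ2 := hmem Q₂ h2
    have hv : Vle Q₂ (x0 * aeval u p * (algebraMap k Ft γ)⁻¹ - 1) (-1 + 0) := by
      rw [hid]
      refine Vle.mul (Vle.add ?_ ?_) (hvγ Q₂)
      · have := hx0Q2.mul (sepChart_vle_aeval Q₂ hmQ2 p)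
        simpa using this
      · have := (hvsub Q₂ h2).mul (sepChart_vle_aeval Q₂ hmQ2 q)
        simpa using this
    rw [Vle.iff_ord] at hv
    rcases hv with h | h
    · exfalso
      have h1' : x0 * aeval u p * (algebraMap k Ft γ)⁻¹ = 1 := sub_eq_zero.mp h
      rw [h1', Place.ord_one] at hzero
      exact lt_irrefl _ hzero
    · omega
  · -- regular where `u` is regular
    intro Q hQ
    have hmQ := hmem Q hQ
    suffices hv : Vle Q (x0 * aeval u p * (algebraMap k Ft γ)⁻¹) 0 by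
      rw [Vle.iff_ord] at hv
      rcases hv with h | h
      · exact absurd h hxne
      · simpa using h
    by_cases hpole : Q.ord x0 < 0
    · have hQP : Q ∈ P := (hPmem Q).mpr ⟨hpole, hQ⟩
      have hsplit : p = (X - C (c Q)) ^ m Q * ∏ Q' ∈ P.erase Q, (X - C (c Q')) ^ m Q' := by
        rw [hp]
        exact (Finset.mul_prod_erase P (fun Q' => (X - C (c Q')) ^ m Q') hQP).symm
      set r : k[X] := ∏ Q' ∈ P.erase Q, (X - C (c Q')) ^ m Q' with hr
      have hA : aeval u p = (u - algebraMap k Ft (c Q)) ^ m Q * aeval u r := by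
        rw [hsplit]
        simp
      have hmQ' : ((m Q : ℕ) : ℤ) = -(Q.ord x0) := by
        rw [hm]
        exact Int.toNat_of_nonneg (by omega)
      have hvx0 : Vle Q x0 (-(Q.ord x0)) := by
        rw [Vle.iff_ord]
        right
        omega
      have hv1 : Vle Q ((u - algebraMap k Ft (c Q)) ^ m Q) ((m Q : ℕ) * (-1 : ℤ)) :=
        (hvsub Q hQ).pow (m Q)
      have hv2 := ((hvx0.mul (hv1.mul (sepChart_vle_aeval Q hmQ r))).mul (hvγ Q))
      rw [hA]
      refine hv2.mono ?_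
      rw [hmQ']
      omega
    · have hvx0 : Vle Q x0 0 := by
        rw [Vle.iff_ord]
        right
        omega
      have := (hvx0.mul (sepChart_vle_aeval Q hmQ p)).mul (hvγ Q)
      simpa using this

end Fermat.Agent.GZ.Aux23

end
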