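/-
GATE-Z / AUX23 (helper18): WELL-DEFINEDNESS of the descended place reduction map.

Frame: `F ⊂ F'`, `Ft ⊂ Ft'`, compatible reduction data `R`, `R'` (`RedCompat`), an L-space frame
`H' : LSpaceHyp R' g c` upstairs, equal relative degrees `[F' : F] = [Ft' : Ft]`, and a Gauss chart
`u ∈ Rw` of `F` keeping its degree upstairs.  Then for two places `P'₁, P'₂` of `F'` with the same
restriction to `F`, the reductions `rOf H' P'ᵢ` have the same restriction to `Ft`.

Proof: separate the two candidate places by `x ∈ Ft` with poles only at the poles of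
`v~ = 1/(u~ - b~)` (LEAF C), lift `x` to `z ∈ Rw'` with poles only at the poles of `v` (L-space
surjectivity upstairs + no cancellation), take the NORM `h = N_{F'/F} z ∈ Rw`, whose reduction is
`x ^ n` (LEAF A) and which is regular wherever `v` is; evaluate `h` at the two conjugate places
(value calculus (I)(V) upstairs).
-/
import Mathlib
import Fermat.Agent.GZ.Aux23.NormRed
import Fermat.Agent.GZ.Aux23.FISpecial
import Fermat.Agent.GZ.Aux23.SepChart
import Fermat.Agent.GZ.Mod.Inst.NoCancel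
import Fermat.Agent.GJ.HInputs.Relative

set_option autoImplicit false
set_option linter.unusedSectionVars false

noncomputable section

open AlgebraicCurve IntermediateField

namespace Fermat.Agent.GZ.Aux23

open Fermat.Agent.RRh45 Fermat.Agent.GJ.S37MinDiv Fermat.Agent.GJ.J1 Fermat.Agent.GJ.S37LSpace
  Fermat.Agent.GJ.S37ROfSurj Fermat.Agent.S24 Fermat.Agent.GH Fermat.Agent.GH.Disc

/-! ### generalities -/

section Gen

variable {K F F' : Type*} [Field K] [Field F] [Field F'] [Algebra K F] [Algebra K F']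
  [Algebra F F'] [IsScalarTower K F F'] [Algebra.IsIntegral F F']

/-- values are compatible with restriction of places. -/
theorem valueAt_restrict_iff (P' : Place K F') (e : F) (a : K) :
    ValueAt (P'.restrict F) e a ↔ ValueAt P' (algebraMap F F' e) a := by
  rw [valueAt_iff_ord, valueAt_iff_ord]
  have h1 : algebraMap F F' e - algebraMap K F' a = algebraMap F F' (e - algebraMap K F a) := by
    rw [map_sub, ← IsScalarTower.algebraMap_apply]
  rw [h1, P'.ord_restrict]
  have hpos : 0 < (P'.ramificationIndex F : ℤ) := by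
    exact_mod_cast P'.ramificationIndex_pos (F := F)
  constructor
  · rintro (h | h)
    · left; rw [h, map_zero]
    · right; positivity
  · rintro (h | h)
    · left; exact (map_eq_zero_iff _ (algebraMap F F').injective).mp h
    · right
      by_contra hneg
      have : (P'.ramificationIndex F : ℤ) * (P'.restrict F).ord (e - algebraMap K F a) ≤ 0 :=
        mul_nonpos_of_nonneg_of_nonpos hpos.le (not_lt.mp hneg)
      omega

/-- regularity is compatible with restriction of places. -/
theorem mem_restrict_iff' (P' : Place K F') (e : F) :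
    e ∈ (P'.restrict F).toValuationSubring ↔ algebraMap F F' e ∈ P'.toValuationSubring :=
  Iff.rfl

theorem ord_algebraMap_nonneg_iff (P' : Place K F') (e : F) :
    0 ≤ P'.ord (algebraMap F F' e) ↔ 0 ≤ (P'.restrict F).ord e := by
  rw [P'.ord_restrict]
  have hpos : 0 < (P'.ramificationIndex F : ℤ) := by
    exact_mod_cast P'.ramificationIndex_pos (F := F)
  constructor
  · intro h
    by_contra hneg
    have : (P'.ramificationIndex F : ℤ) * (P'.restrict F).ord e < 0 :=
      mul_neg_of_pos_of_neg hpos (not_le.mp hneg)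
    omega
  · intro h; positivity

theorem ord_algebraMap_pos_iff (P' : Place K F') (e : F) :
    0 < P'.ord (algebraMap F F' e) ↔ 0 < (P'.restrict F).ord e := by
  rw [P'.ord_restrict]
  have hpos : 0 < (P'.ramificationIndex F : ℤ) := by
    exact_mod_cast P'.ramificationIndex_pos (F := F)
  constructor
  · intro h
    by_contra hneg
    have : (P'.ramificationIndex F : ℤ) * (P'.restrict F).ord e ≤ 0 :=
      mul_nonpos_of_nonneg_of_nonpos hpos.le (not_lt.mp hneg)
    omega
  · intro h; positivity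

end Gen

/-! ### tubes: a chart keeping its degree has no pole on the discs of the non-poles of its
reduction, and its pole divisor pushes forward to the pole divisor of the reduction -/

section Tube

variable {K F k Ft : Type*} [Field K] [Field F] [Algebra K F] [Field k] [Field Ft] [Algebra k Ft]
variable {R : RedData K F k Ft} {g c : ℤ}
variable [FiniteResidues K F] [HasPrincipalDivisors K F] [Nonempty (Place K F)]
variable [FiniteResidues k Ft] [HasPrincipalDivisors k Ft] [Nonempty (Place k Ft)]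
variable [Infinite k]

open Fermat.Agent.GZ.Mod.Inst in
/-- a chart keeping its degree under reduction is regular on the disc of every non-pole of its
reduction. -/
theorem ord_nonneg_of_ord_red_nonneg (x₀ : F) [IsGen K x₀] (xt₀ : Ft) [IsGen k xt₀]
    (H : LSpaceHyp R g c) {y : R.Rw} (htr : Transcendental k (R.red y))
    (hfr : Module.finrank K⟮(y : F)⟯ F ≤ Module.finrank k⟮R.red y⟯ Ft)
    {Q : Place k Ft} (hQ : 0 ≤ Q.ord (R.red y)) {P : Place K F} (hP : rOf H P = Q) :
    0 ≤ P.ord (y : F) := by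
  classical
  have hy : R.red y ≠ 0 := fun h => htr (h ▸ isAlgebraic_zero)
  have hy0 : (y : F) ≠ 0 := coe_ne_zero_of_red_ne_zero hy
  rcases no_cancel_of_finrank x₀ xt₀ H htr hfr Q with h | h
  · exact h P hP
  · obtain ⟨Dy, hDy, -⟩ := HasPrincipalDivisors.exists_divisor (K := K) (y : F) hy0
    have hsum := ord_red_eq_sum H hy hDy Q
    rw [hsum] at hQ
    have hle : ∀ P' ∈ Dy.support.filter (fun P => rOf H P = Q), P'.ord (y : F) ≤ 0 :=
      fun P' hP' => h P' (Finset.mem_filter.mp hP').2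
    by_cases hmem : P ∈ Dy.support
    · have hmem' : P ∈ Dy.support.filter (fun P => rOf H P = Q) :=
        Finset.mem_filter.mpr ⟨hmem, hP⟩
      have h0 : ∑ P' ∈ Dy.support.filter (fun P => rOf H P = Q), P'.ord (y : F) = 0 :=
        le_antisymm (Finset.sum_nonpos hle) hQ
      have := (Finset.sum_eq_zero_iff_of_nonpos hle).mp h0 P hmem'
      omega
    · have : P.ord (y : F) = 0 := by
        rw [← hDy P]; exact Finsupp.notMem_support_iff.mp hmem
      omega

/-- the same, as membership in `Odisc`. -/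
theorem mem_odisc_of_ord_red_nonneg (x₀ : F) [IsGen K x₀] (xt₀ : Ft) [IsGen k xt₀]
    (H : LSpaceHyp R g c) {y : R.Rw} (htr : Transcendental k (R.red y))
    (hfr : Module.finrank K⟮(y : F)⟯ F ≤ Module.finrank k⟮R.red y⟯ Ft)
    {Q : Place k Ft} (hQ : 0 ≤ Q.ord (R.red y)) : (y : F) ∈ Odisc H Q := by
  have hy : R.red y ≠ 0 := fun h => htr (h ▸ isAlgebraic_zero)
  have hy0 : (y : F) ≠ 0 := coe_ne_zero_of_red_ne_zero hy
  exact ⟨y.2, fun P hP => (PlaceB.ord_nonneg_iff P hy0).mp
    (ord_nonneg_of_ord_red_nonneg x₀ xt₀ H htr hfr hQ hP)⟩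

open Fermat.Agent.GZ.Mod.Inst in
/-- a pole of a chart keeping its degree reduces to a pole of the reduction, with at least the
same order: `(red y)_∞ (r P) ≥ (y)_∞ (P)`. -/
theorem neg_ord_le_neg_ord_red (x₀ : F) [IsGen K x₀] (xt₀ : Ft) [IsGen k xt₀]
    (H : LSpaceHyp R g c) {y : R.Rw} (htr : Transcendental k (R.red y))
    (hfr : Module.finrank K⟮(y : F)⟯ F ≤ Module.finrank k⟮R.red y⟯ Ft)
    {P : Place K F} (hP : P.ord (y : F) < 0) :
    (rOf H P).ord (R.red y) ≤ P.ord (y : F) := by
  classical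
  have hy : R.red y ≠ 0 := fun h => htr (h ▸ isAlgebraic_zero)
  have hy0 : (y : F) ≠ 0 := coe_ne_zero_of_red_ne_zero hy
  obtain ⟨Dy, hDy, -⟩ := HasPrincipalDivisors.exists_divisor (K := K) (y : F) hy0
  have hsum := ord_red_eq_sum H hy hDy (rOf H P)
  rcases no_cancel_of_finrank x₀ xt₀ H htr hfr (rOf H P) with h | h
  · have := h P rfl; omega
  · rw [hsum]
    have hle : ∀ P' ∈ Dy.support.filter (fun P' => rOf H P' = rOf H P), P'.ord (y : F) ≤ 0 :=
      fun P' hP' => h P' (Finset.mem_filter.mp hP').2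
    have hmem : P ∈ Dy.support.filter (fun P' => rOf H P' = rOf H P) :=
      Finset.mem_filter.mpr ⟨Finsupp.mem_support_iff.mpr (by rw [hDy P]; omega), rfl⟩
    have h1 := Finset.single_le_sum (f := fun P' : Place K F => -P'.ord (y : F))
      (fun i hi => by have := hle i hi; omega) hmem
    rw [Finset.sum_neg_distrib] at h1
    omega

end Tube

/-! ### lifting functions with poles at the poles of the reduction of a chart -/

section Lift

variable {K F k Ft : Type*} [Field K] [Field F] [Algebra K F] [Field k] [Field Ft] [Algebra k Ft]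
variable {R : RedData K F k Ft} {g c : ℤ}
variable [FiniteResidues K F] [HasPrincipalDivisors K F] [Nonempty (Place K F)]
variable [FiniteResidues k Ft] [HasPrincipalDivisors k Ft] [Nonempty (Place k Ft)]
variable [Infinite k]

/-- **lifting**: a function on the special fibre which is regular wherever the reduction of
`y ∈ Rw` is regular lifts to `z ∈ Rw` which is regular wherever `y` is regular. -/
theorem exists_lift_regular (x₀ : F) [IsGen K x₀] (H : LSpaceHyp R g c) {y : R.Rw}
    (hytr : Transcendental K (y : F)) (hy : R.red y ≠ 0) (xt : Ft)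
    (hxt : ∀ Q : Place k Ft, 0 ≤ Q.ord (R.red y) → 0 ≤ Q.ord xt) :
    ∃ z : R.Rw, R.red z = xt ∧ ∀ P : Place K F, 0 ≤ P.ord (y : F) → 0 ≤ P.ord (z : F) := by
  classical
  have hy0 : (y : F) ≠ 0 := coe_ne_zero_of_red_ne_zero hy
  obtain ⟨Dy, hDy, -⟩ := HasPrincipalDivisors.exists_divisor (K := K) (y : F) hy0
  obtain ⟨Dt, hDt, -⟩ := HasPrincipalDivisors.exists_divisor (K := k) (R.red y) hy
  set N : Divisor K F := (-Dy) ⊔ 0 with hN
  have hN0 : 0 ≤ N := le_sup_right
  have hNP : ∀ P, N P = max (-(P.ord (y : F))) 0 := fun P => by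
    rw [hN, Fermat.Agent.GJ.S37PoleDeg.neg_sup_zero_apply, hDy P]
  -- `y` has a pole
  obtain ⟨Pinf, hPinf⟩ := Fermat.Agent.GJ.FF.exists_place_ord_neg x₀ hytr
  have hdegN : 1 ≤ Divisor.degree N := by
    have h1 : Finsupp.single Pinf (1 : ℤ) ≤ N := by
      intro P
      by_cases hPP : P = Pinf
      · subst hPP
        rw [Finsupp.single_eq_same, hNP]
        have := le_max_left (-(P.ord (y : F))) 0
        omega
      · rw [Finsupp.single_eq_of_ne hPP]
        exact hN0 P
    have h2 := Fermat.Agent.GJ.S37.PlaceMap.degree_mono H.degF h1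
    rw [Divisor.degree_single, H.degF Pinf] at h2
    simpa using h2
  -- the multiplicity
  set M : ℕ := (c + 1).toNat + ∑ Q ∈ Dt.support, (Q.ord xt).natAbs with hM
  have hMc : c + 1 ≤ (M : ℤ) := by
    have h1 := Int.self_le_toNat (c + 1)
    rw [hM, Nat.cast_add]
    have h0 : (0 : ℤ) ≤ ((∑ Q ∈ Dt.support, (Q.ord xt).natAbs : ℕ) : ℤ) := Int.natCast_nonneg _
    omega
  have hMQ : ∀ Q ∈ Dt.support, -(Q.ord xt) ≤ (M : ℤ) := by
    intro Q hQ
    have h1 : (Q.ord xt).natAbs ≤ ∑ Q ∈ Dt.support, (Q.ord xt).natAbs :=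
      Finset.single_le_sum (f := fun Q : Place k Ft => (Q.ord xt).natAbs)
        (fun _ _ => Nat.zero_le _) hQ
    have h2 : (M : ℤ) = (((c + 1).toNat : ℕ) : ℤ) +
        ((∑ Q ∈ Dt.support, (Q.ord xt).natAbs : ℕ) : ℤ) := by rw [hM, Nat.cast_add]
    have h3 : (0 : ℤ) ≤ (((c + 1).toNat : ℕ) : ℤ) := Int.natCast_nonneg _
    have h4 : ((Q.ord xt).natAbs : ℤ) ≤ ((∑ Q ∈ Dt.support, (Q.ord xt).natAbs : ℕ) : ℤ) := by
      exact_mod_cast h1
    have h5 : -(Q.ord xt) ≤ ((Q.ord xt).natAbs : ℤ) := by omega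
    omega
  set D : Divisor K F := M • N with hD
  have hD0 : 0 ≤ D := by rw [hD]; exact nsmul_nonneg hN0 M
  have hDP : ∀ P, D P = (M : ℤ) * N P := fun P => by
    rw [hD, Finsupp.smul_apply, nsmul_eq_mul]
  have hdegD : c + 1 ≤ Divisor.degree D := by
    rw [hD, map_nsmul, nsmul_eq_mul]
    have hc := H.c_nonneg
    nlinarith
  obtain ⟨-, -, hred⟩ := redSpace_eq H hD0 hdegD
  -- `xt` lies in the Riemann–Roch space of the push-forward
  have hmem : xt ∈ riemannRochSpace (Finsupp.mapDomain (rOf H) D) := by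
    rw [mem_riemannRochSpace_iff]
    intro Q
    by_cases hx0 : xt = 0
    · exact Or.inl hx0
    right
    have hpush0 : 0 ≤ Finsupp.mapDomain (rOf H) D Q := by
      rw [mapDomain_apply_eq_sum]
      exact Finset.sum_nonneg fun P _ => hD0 P
    rcases le_or_gt 0 (Q.ord (R.red y)) with hQ | hQ
    · have := hxt Q hQ; omega
    · -- a pole of `y` in the disc of `Q`
      obtain ⟨P, hPneg, hPQ⟩ := exists_rOf_eq_of_ord_neg H hy hQ
      have hQS : Q ∈ Dt.support := Finsupp.mem_support_iff.mpr (by rw [hDt Q]; omega)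
      have h1 := hMQ Q hQS
      have h2 : D P ≤ Finsupp.mapDomain (rOf H) D Q := by
        rw [mapDomain_apply_eq_sum]
        by_cases hPm : P ∈ D.support
        · exact Finset.single_le_sum (f := fun P => D P) (fun P' _ => hD0 P')
            (Finset.mem_filter.mpr ⟨hPm, hPQ⟩)
        · rw [Finsupp.notMem_support_iff.mp hPm]
          exact Finset.sum_nonneg fun P' _ => hD0 P'
      have h3 : (M : ℤ) ≤ D P := by
        rw [hDP, hNP]
        have h4 : (1 : ℤ) ≤ max (-(P.ord (y : F))) 0 := by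
          have := le_max_left (-(P.ord (y : F))) 0
          omega
        have hM0 : (0 : ℤ) ≤ M := Int.natCast_nonneg _
        nlinarith
      omega
  rw [← hred] at hmem
  obtain ⟨z, hzD, hz⟩ := hmem
  refine ⟨z, hz, fun P hP => ?_⟩
  rcases (mem_riemannRochSpace_iff.mp hzD P) with h0 | h0
  · rw [h0, Place.ord_zero]
  · rw [hDP, hNP, max_eq_right (by omega), mul_zero, neg_zero] at h0
    exact h0

end Lift

/-! ### the separating norm and well-definedness -/

section WellDef

variable {K F F' k Ft Ft' : Type*} [Field K] [Field F] [Field F'] [Field k] [Field Ft] [Field Ft']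
  [Algebra K F] [Algebra K F'] [Algebra F F'] [IsScalarTower K F F'] [FiniteDimensional F F']
  [Algebra k Ft] [Algebra k Ft'] [Algebra Ft Ft'] [IsScalarTower k Ft Ft']
  [FiniteDimensional Ft Ft']
variable {R : RedData K F k Ft} {R' : RedData K F' k Ft'} {g c : ℤ}
variable [FiniteResidues K F'] [HasPrincipalDivisors K F'] [Nonempty (Place K F')]
variable [FiniteResidues k Ft'] [HasPrincipalDivisors k Ft'] [Nonempty (Place k Ft')]
variable [IsAlgClosed K] [CharZero K] [IsAlgClosed k]

/-- a unit of `Rw`: nonzero reduction gives an inverse in `Rw` (instance-free copy). -/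
theorem inv_mem_Rw_aux {K F k Ft : Type*} [Field K] [Field F] [Algebra K F] [Field k] [Field Ft]
    [Algebra k Ft] {R : RedData K F k Ft} {e : F} (he : e ∈ R.Rw) (hred : R.red ⟨e, he⟩ ≠ 0) :
    e⁻¹ ∈ R.Rw := by
  have hnm : (⟨e, he⟩ : R.Rw) ∉ IsLocalRing.maximalIdeal R.Rw := fun h =>
    hred ((R.red_eq_zero_iff _).mpr h)
  rw [IsLocalRing.mem_maximalIdeal, mem_nonunits_iff, not_not] at hnm
  obtain ⟨v, hv⟩ := hnm.exists_right_inv
  have h2 : e * (v : F) = 1 := congrArg Subtype.val hv
  rw [← eq_inv_of_mul_eq_one_right h2]; exact v.2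

theorem adjoin_inv_sub_eq {K F : Type*} [Field K] [Field F] [Algebra K F] (u : F) (b : K)
    (_h : u - algebraMap K F b ≠ 0) : K⟮(u - algebraMap K F b)⁻¹⟯ = K⟮u⟯ := by
  apply le_antisymm
  · rw [adjoin_simple_le_iff]
    exact inv_mem (sub_mem (mem_adjoin_simple_self K u) (IntermediateField.algebraMap_mem _ b))
  · rw [adjoin_simple_le_iff]
    have h1 : (u - algebraMap K F b)⁻¹ ∈ K⟮(u - algebraMap K F b)⁻¹⟯ :=
      mem_adjoin_simple_self K _
    have h2 := add_mem (inv_mem h1)
      (IntermediateField.algebraMap_mem K⟮(u - algebraMap K F b)⁻¹⟯ b)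
    rwa [inv_inv, sub_add_cancel] at h2

theorem exists_const_not_valueAt {k Ft : Type*} [Field k] [Field Ft] [Algebra k Ft] [Infinite k]
    (Q₁ Q₂ : Place k Ft) (ub : Ft) : ∃ c : k, ¬ ValueAt Q₁ ub c ∧ ¬ ValueAt Q₂ ub c := by
  classical
  have hs : ∀ Q : Place k Ft, {c : k | ValueAt Q ub c}.Subsingleton :=
    fun Q a ha b hb => valueAt_unique ha hb
  have hfin : ({c : k | ValueAt Q₁ ub c} ∪ {c : k | ValueAt Q₂ ub c}).Finite :=
    ((hs Q₁).finite).union ((hs Q₂).finite)
  obtain ⟨c, hc⟩ := Infinite.exists_notMem_finset hfin.toFinset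
  rw [Set.Finite.mem_toFinset, Set.mem_union, not_or] at hc
  exact ⟨c, hc.1, hc.2⟩

/-- **the separating norm**: for two distinct places `Q₁ ≠ Q₂` of `Ft` there is `h ∈ Rw` (a norm
from `F'`) whose reduction has the values `0` at `Q₁` and `1` at `Q₂`, and which, viewed in `F'`,
has no pole on the residue disc of any place of `Ft'` above `Q₁` or `Q₂`. -/
theorem exists_sep_norm (hc : RedCompat R R') (H' : LSpaceHyp R' g c)
    (hn : Module.finrank F F' = Module.finrank Ft Ft')
    (x₀ : F) [IsGen K x₀] (xt₀ : Ft) [IsGen k xt₀]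
    (u : R.Rw) (hutr : Transcendental k (R.red u))
    (hfr : Module.finrank K⟮algebraMap F F' (u : F)⟯ F' ≤
      Module.finrank k⟮algebraMap Ft Ft' (R.red u)⟯ Ft')
    (Q₁ Q₂ : Place k Ft) (hne : Q₁ ≠ Q₂) :
    ∃ h : R.Rw, ValueAt Q₁ (R.red h) 0 ∧ ValueAt Q₂ (R.red h) 1 ∧
      ∀ Q' : Place k Ft', (Q'.restrict Ft = Q₁ ∨ Q'.restrict Ft = Q₂) →
        algebraMap F F' (h : F) ∈ Odisc H' Q' := by
  classical
  have : CharZero F := charZero_of_injective_algebraMap (algebraMap K F).injective
  have : IsGen K (algebraMap F F' x₀) :=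
    Fermat.Agent.DS.P4.GenTower.isGen_algebraMap_of_finite x₀
  have : IsGen k (algebraMap Ft Ft' xt₀) :=
    Fermat.Agent.DS.P4.GenTower.isGen_algebraMap_of_finite xt₀
  -- the constant
  obtain ⟨cc, hc1, hc2⟩ := exists_const_not_valueAt Q₁ Q₂ (R.red u)
  obtain ⟨b, hb⟩ := R.res_surjective cc
  set w : R.Rw := u - constRw R b with hw
  have hwred : R.red w = R.red u - algebraMap k Ft cc := by
    rw [hw, map_sub, ← hb]
    congr 1
    exact R.red_algebraMap b
  rw [valueAt_iff_ord, not_or, ← hwred] at hc1 hc2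
  have hw0 : R.red w ≠ 0 := hc1.1
  have hwF0 : (w : F) ≠ 0 := coe_ne_zero_of_red_ne_zero hw0
  have hvmem : (w : F)⁻¹ ∈ R.Rw := inv_mem_Rw_aux w.2 hw0
  set v : R.Rw := ⟨(w : F)⁻¹, hvmem⟩ with hv
  have hvred : R.red v = (R.red w)⁻¹ := by
    have h1 : w * v = 1 := Subtype.ext (mul_inv_cancel₀ hwF0)
    have h2 := congrArg R.red h1
    rw [map_mul, map_one] at h2
    exact eq_inv_of_mul_eq_one_right h2
  have hvtr : Transcendental k (R.red v) := by
    intro halg
    apply hutr
    have h1 : IsAlgebraic k (R.red w) := by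
      have := halg.inv
      rwa [hvred, inv_inv] at this
    have h2 : IsAlgebraic k (R.red w + algebraMap k Ft cc) := h1.add (isAlgebraic_algebraMap cc)
    rwa [hwred, sub_add_cancel] at h2
  have hQ1 : 0 ≤ Q₁.ord (R.red v) := by
    rw [hvred, Place.ord_inv]; have := hc1.2; omega
  have hQ2 : 0 ≤ Q₂.ord (R.red v) := by
    rw [hvred, Place.ord_inv]; have := hc2.2; omega
  -- LEAF C
  obtain ⟨xb, hx1, hx2, hxreg⟩ := exists_sep_of_chart xt₀ (R.red v) hvtr Q₁ Q₂ hne hQ1 hQ2
  -- upstairs
  set y : R'.Rw := hc.incl v with hy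
  have hyred : R'.red y = algebraMap Ft Ft' (R.red v) := hc.red_incl v
  have hytrt : Transcendental k (R'.red y) := by
    rw [hyred]
    exact (transcendental_algebraMap_iff (algebraMap Ft Ft').injective).mpr hvtr
  have hy0 : R'.red y ≠ 0 := fun h => hytrt (h ▸ isAlgebraic_zero)
  have hytr : Transcendental K (y : F') :=
    Fermat.Agent.GJ.S37.ResDeg.RedData.transcendental_of_isGaussChart R' ⟨y.2, hytrt⟩
  have hxt : ∀ Q' : Place k Ft', 0 ≤ Q'.ord (R'.red y) →
      0 ≤ Q'.ord (algebraMap Ft Ft' xb) := by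
    intro Q' hQ'
    rw [hyred, ord_algebraMap_nonneg_iff] at hQ'
    rw [ord_algebraMap_nonneg_iff]
    exact hxreg _ hQ'
  obtain ⟨z, hzred, hzreg⟩ := exists_lift_regular (algebraMap F F' x₀) H' hytr hy0
    (algebraMap Ft Ft' xb) hxt
  -- the norm
  obtain ⟨hmem, hred⟩ := norm_mem_and_red hc hn z
  set h : R.Rw := ⟨Algebra.norm F (z : F'), hmem⟩ with hh
  have hhred : R.red h = xb ^ Module.finrank Ft Ft' := by
    rw [hred, hzred, Algebra.norm_algebraMap]
  have hnpos : Module.finrank Ft Ft' ≠ 0 := (Module.finrank_pos).ne'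
  -- regularity of the norm
  have hreg : ∀ P : Place K F, 0 ≤ P.ord (v : F) → 0 ≤ P.ord (h : F) := by
    intro P hP
    by_cases hz0 : (z : F') = 0
    · have : (h : F) = 0 := by rw [hh]; show Algebra.norm F (z : F') = 0; rw [hz0, Algebra.norm_zero]
      rw [this, Place.ord_zero]
    · have hform := Fermat.Agent.GJ.HInputs.norm_formula_fiber (F' := F') P
        (PlaceB.deg_eq_one P x₀) (z : F') hz0
      show 0 ≤ P.ord (Algebra.norm F (z : F'))
      rw [← hform]
      refine Finset.sum_nonneg fun w' hw' => ?_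
      rw [Place.mem_fiber] at hw'
      refine hzreg w' ?_
      show 0 ≤ w'.ord (algebraMap F F' (v : F))
      rw [ord_algebraMap_nonneg_iff, hw']
      exact hP
  -- degree preservation for `y`
  have hyF : (y : F') = (algebraMap F F' (u : F) - algebraMap K F' (b : K))⁻¹ := by
    show algebraMap F F' ((w : F)⁻¹) = _
    rw [map_inv₀, hw]
    show (algebraMap F F' ((u : F) - algebraMap K F (b : K)))⁻¹ = _
    rw [map_sub, ← IsScalarTower.algebraMap_apply]
  have hyt : R'.red y = (algebraMap Ft Ft' (R.red u) - algebraMap k Ft' cc)⁻¹ := by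
    rw [hyred, hvred, map_inv₀, hwred, map_sub, ← IsScalarTower.algebraMap_apply]
  have hne1 : algebraMap F F' (u : F) - algebraMap K F' (b : K) ≠ 0 := by
    intro h0
    have : (y : F') = 0 := by rw [hyF, h0, inv_zero]
    exact coe_ne_zero_of_red_ne_zero hy0 this
  have hne2 : algebraMap Ft Ft' (R.red u) - algebraMap k Ft' cc ≠ 0 := by
    intro h0
    exact hy0 (by rw [hyt, h0, inv_zero])
  have hfry : Module.finrank K⟮(y : F')⟯ F' ≤ Module.finrank k⟮R'.red y⟯ Ft' := by
    rw [hyF, hyt, adjoin_inv_sub_eq _ _ hne1, adjoin_inv_sub_eq _ _ hne2]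
    exact hfr
  refine ⟨h, ?_, ?_, ?_⟩
  · rw [hhred]
    have h0 : ValueAt Q₁ xb 0 := (valueAt_zero_iff Q₁ xb).mpr (Or.inr hx1)
    have := valueAt_pow h0 (Module.finrank Ft Ft')
    rwa [zero_pow hnpos] at this
  · rw [hhred]
    have h0 : ValueAt Q₂ xb 1 := by
      rw [valueAt_iff_ord, map_one]; exact Or.inr hx2
    have := valueAt_pow h0 (Module.finrank Ft Ft')
    rwa [one_pow] at this
  · intro Q' hQ'
    have hQv : 0 ≤ Q'.ord (R'.red y) := by
      rw [hyred, ord_algebraMap_nonneg_iff]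
      rcases hQ' with h' | h' <;> rw [h'] <;> assumption
    have hyO := mem_odisc_of_ord_red_nonneg (algebraMap F F' x₀) (algebraMap Ft Ft' xt₀) H'
      hytrt hfry hQv
    refine ⟨hc.mem _ h.2, fun P' hP' => ?_⟩
    have h1 : (y : F') ∈ P'.toValuationSubring := hyO.2 P' hP'
    have h2 : 0 ≤ P'.ord (algebraMap F F' (v : F)) :=
      (PlaceB.ord_nonneg_iff P' (coe_ne_zero_of_red_ne_zero hy0)).mpr h1
    rw [ord_algebraMap_nonneg_iff] at h2
    have h3 := hreg _ h2
    by_cases hh0 : (h : F) = 0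
    · rw [hh0, map_zero]; exact zero_mem _
    · exact (mem_restrict_iff' P' (h : F)).mp ((PlaceB.ord_nonneg_iff _ hh0).mp h3)

/-- **(W) well-definedness**: the restriction to `Ft` of the reduction of a place `P'` of `F'`
depends only on the restriction of `P'` to `F`. -/
theorem restrict_rOf_eq (hc : RedCompat R R') (H' : LSpaceHyp R' g c)
    (hn : Module.finrank F F' = Module.finrank Ft Ft')
    (x₀ : F) [IsGen K x₀] (xt₀ : Ft) [IsGen k xt₀]
    (u : R.Rw) (hutr : Transcendental k (R.red u))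
    (hfr : Module.finrank K⟮algebraMap F F' (u : F)⟯ F' ≤
      Module.finrank k⟮algebraMap Ft Ft' (R.red u)⟯ Ft')
    {P'₁ P'₂ : Place K F'} (hP : P'₁.restrict F = P'₂.restrict F) :
    (rOf H' P'₁).restrict Ft = (rOf H' P'₂).restrict Ft := by
  by_contra hne
  obtain ⟨h, h0, h1, hO⟩ := exists_sep_norm hc H' hn x₀ xt₀ u hutr hfr _ _ hne
  have hO1 := hO (rOf H' P'₁) (Or.inl rfl)
  have hO2 := hO (rOf H' P'₂) (Or.inr rfl)
  have hd1 : P'₁ ∈ disc H' (rOf H' P'₁) := rfl
  have hd2 : P'₂ ∈ disc H' (rOf H' P'₂) := rfl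
  have hreg : (h : F) ∈ (P'₁.restrict F).toValuationSubring :=
    (mem_restrict_iff' P'₁ (h : F)).mpr (hO1.2 P'₁ hd1)
  obtain ⟨a, ha⟩ := exists_valueAt (PlaceB.deg_eq_one (P'₁.restrict F) x₀) hreg
  have ha1 : ValueAt P'₁ (algebraMap F F' (h : F)) a := (valueAt_restrict_iff P'₁ _ a).mp ha
  have ha2 : ValueAt P'₂ (algebraMap F F' (h : F)) a :=
    (valueAt_restrict_iff P'₂ _ a).mp (hP ▸ ha)
  have hv1 := valueAt_red hO1 hd1 ha1
  have hv2 := valueAt_red hO2 hd2 ha2
  have hredh : R'.red ⟨algebraMap F F' (h : F), hO1.1⟩ = algebraMap Ft Ft' (R.red h) :=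
    hc.red (h : F) h.2
  rw [hredh, ← valueAt_restrict_iff] at hv1 hv2
  have e1 := valueAt_unique hv1 h0
  have e2 := valueAt_unique hv2 h1
  rw [e1] at e2
  exact zero_ne_one e2

end WellDef

end Fermat.Agent.GZ.Aux23

end
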