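/-
GATE-Z / AUX23 (helper18): the DESCENDED place reduction map.

Frame of `GZ/Aux23/WellDef.lean`: `F ⊂ F'`, `Ft ⊂ Ft'`, compatible reduction data, an L-space
frame `H'` upstairs, a Gauss chart `u` of level `F` keeping its degree upstairs.  Then

* `finrank_eq_of_chart` : `[F' : F] = [Ft' : Ft]`;
* `rDesc`, `rDesc_restrict` : the map `r (P' | F) := (rOf H' P') | Ft`;
* `weighted_formula` : `n · (r_* div y)(Q) = (∑_{Q' | Q} e(Q' | Q)) · ord_Q (red y)`;
* `sum_ramificationIndex_special` : `∑_{Q' | Q} e(Q' | Q) = n` (LEAF B);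
* `isRedMap_rDesc` : the FIBRE FORMULA `r_* (div y) = div (red y)` for `y ∈ Rw`;
* `mapDomain_rOf_pullback` : `r'_* π^* D = π~^* r_* D` (bounded-homomorphism trick).
-/
import Mathlib
import Fermat.Agent.GZ.Aux23.WellDef
import Fermat.Agent.GZ.Aux23.ValuesR
import Fermat.Agent.GJ.S37.BoundedRR
import Fermat.Agent.GJ.S37.BoundedES
import Fermat.Agent.GJ.S37.ResidueDegreeRed

set_option autoImplicit false
set_option linter.unusedSectionVars false

noncomputable section

open AlgebraicCurve IntermediateField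

namespace Fermat.Agent.GZ.Aux23

open Fermat.Agent.RRh45 Fermat.Agent.GJ.S37MinDiv Fermat.Agent.GJ.J1 Fermat.Agent.GJ.S37LSpace
  Fermat.Agent.GJ.S37ROfSurj Fermat.Agent.S24 Fermat.Agent.GH Fermat.Agent.GH.Disc
  Fermat.Agent.GZ.Aux23.ValuesR Fermat.Agent.GJ.S37Bounded

/-! ### push-forward of a pull-back -/

section PushPull

variable {K F F' : Type*} [Field K] [Field F] [Field F'] [Algebra K F] [Algebra K F']
  [Algebra F F'] [IsScalarTower K F F'] [Algebra.IsIntegral F F'] [HasPrincipalDivisors K F']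

/-- `π_* π^* D = (∑_{w | v} e(w | v)) · D` (set-theoretic push-forward). -/
theorem mapDomain_restrict_pullback_apply (D : Divisor K F) (v : Place K F) :
    Finsupp.mapDomain (fun w : Place K F' => w.restrict F) (Divisor.pullback F' D) v =
      (∑ w ∈ v.fiber F', (w.ramificationIndex F : ℤ)) * D v := by
  classical
  induction D using Finsupp.induction_linear with
  | zero => simp
  | add D E hD hE =>
    rw [map_add, Finsupp.mapDomain_add, Finsupp.add_apply, hD, hE, Finsupp.add_apply, mul_add]
  | single a n =>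
    rw [Divisor.pullback_single, Finsupp.mapDomain_finsetSum, Finsupp.finsetSum_apply]
    by_cases hav : a = v
    · subst hav
      rw [Finsupp.single_eq_same, Finset.sum_mul]
      refine Finset.sum_congr rfl fun w hw => ?_
      rw [Finsupp.mapDomain_single, Place.mem_fiber.mp hw, Finsupp.single_eq_same, mul_comm]
    · rw [Finsupp.single_eq_of_ne (Ne.symm hav), mul_zero]
      refine Finset.sum_eq_zero fun w hw => ?_
      rw [Finsupp.mapDomain_single, Place.mem_fiber.mp hw, Finsupp.single_eq_of_ne (Ne.symm hav)]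

/-- the value of a set-theoretic push-forward as a sum over the fibre. -/
theorem mapDomain_restrict_apply (E : Divisor K F') (v : Place K F) :
    Finsupp.mapDomain (fun w : Place K F' => w.restrict F) E v = ∑ w ∈ v.fiber F', E w := by
  classical
  rw [mapDomain_apply_eq_sum]
  apply Finset.sum_subset
  · intro w hw
    exact Place.mem_fiber.mpr (Finset.mem_filter.mp hw).2
  · intro w hw hnot
    by_contra hne
    exact hnot (Finset.mem_filter.mpr ⟨Finsupp.mem_support_iff.mpr hne, Place.mem_fiber.mp hw⟩)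

/-- pull-backs of effective divisors are effective. -/
theorem pullback_nonneg {D : Divisor K F} (hD : 0 ≤ D) : 0 ≤ Divisor.pullback F' D := by
  intro w
  rw [Divisor.pullback_apply]
  have := hD (w.restrict F)
  simp only [Finsupp.coe_zero, Pi.zero_apply] at this ⊢
  positivity

end PushPull

/-! ### the relative degrees agree -/

section Degree

variable {K F F' k Ft Ft' : Type*} [Field K] [Field F] [Field F'] [Field k] [Field Ft] [Field Ft']
  [Algebra K F] [Algebra K F'] [Algebra F F'] [IsScalarTower K F F'] [FiniteDimensional F F']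
  [Algebra k Ft] [Algebra k Ft'] [Algebra Ft Ft'] [IsScalarTower k Ft Ft']
  [FiniteDimensional Ft Ft']
variable {R : RedData K F k Ft} {R' : RedData K F' k Ft'}

/-- the residue degree of the tower is at most the degree. -/
theorem finrank_special_le (hc : RedCompat R R') :
    Module.finrank Ft Ft' ≤ Module.finrank F F' := by
  classical
  set n := Module.finrank Ft Ft' with hn'
  let bt : Module.Basis (Fin n) Ft Ft' := Module.finBasis Ft Ft'
  choose b hb using fun i => R'.red_surjective (bt i)
  have hbt : LinearIndependent Ft fun i => R'.red (b i) := by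
    have : (fun i => R'.red (b i)) = bt := funext hb
    rw [this]
    exact bt.linearIndependent
  have hli := NormRed.linearIndependent_lift hc b hbt
  have := hli.fintype_card_le_finrank
  simpa using this

/-- **the relative degrees agree** as soon as one Gauss chart of `F` keeps its degree in `F'`. -/
theorem finrank_eq_of_chart (hc : RedCompat R R') (x₀ : F) [IsGen K x₀]
    (u : R.Rw) (hutr : Transcendental k (R.red u))
    (hfr : Module.finrank K⟮algebraMap F F' (u : F)⟯ F' ≤
      Module.finrank k⟮algebraMap Ft Ft' (R.red u)⟯ Ft') :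
    Module.finrank F F' = Module.finrank Ft Ft' := by
  have hutrK : Transcendental K (u : F) :=
    Fermat.Agent.GJ.S37.ResDeg.RedData.transcendental_of_isGaussChart R ⟨u.2, hutr⟩
  have hgen : IsGen K (u : F) := IsGen.of_transcendental x₀ hutrK
  have hfd : FiniteDimensional K⟮(u : F)⟯ F := hgen.finite
  obtain ⟨hfdt, hle⟩ := Fermat.Agent.GJ.S37.ResDeg.RedData.finrank_red_le R u.2 hutr
  have h1 := finrank_adjoin_algebraMap (k := K) (Ft := F) (Ft' := F') (u : F)
  have h2 := finrank_adjoin_algebraMap (k := k) (Ft := Ft) (Ft' := Ft') (R.red u)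
  rw [h1, h2] at hfr
  have hd : 0 < Module.finrank K⟮(u : F)⟯ F := Module.finrank_pos
  have hn := finrank_special_le hc
  apply le_antisymm
  · -- `d n ≤ d~ n~ ≤ d n~`
    have h3 : Module.finrank K⟮(u : F)⟯ F * Module.finrank F F' ≤
        Module.finrank K⟮(u : F)⟯ F * Module.finrank Ft Ft' :=
      hfr.trans (Nat.mul_le_mul_right _ hle)
    exact Nat.le_of_mul_le_mul_left h3 hd
  · exact hn

end Degree

/-! ### the descended map -/

section Desc

variable {K F F' k Ft Ft' : Type*} [Field K] [Field F] [Field F'] [Field k] [Field Ft] [Field Ft']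
  [Algebra K F] [Algebra K F'] [Algebra F F'] [IsScalarTower K F F'] [FiniteDimensional F F']
  [Algebra k Ft] [Algebra k Ft'] [Algebra Ft Ft'] [IsScalarTower k Ft Ft']
  [FiniteDimensional Ft Ft']
variable {R : RedData K F k Ft} {R' : RedData K F' k Ft'} {g c : ℤ}
variable [FiniteResidues K F'] [HasPrincipalDivisors K F'] [Nonempty (Place K F')]
variable [FiniteResidues k Ft'] [HasPrincipalDivisors k Ft'] [Nonempty (Place k Ft')]
variable [IsAlgClosed K] [CharZero K] [IsAlgClosed k]

/-- the descended place map: reduce a place of `F'` above `P` and restrict to `Ft`. -/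
def rDesc (H' : LSpaceHyp R' g c)
    (hlo : ∀ P : Place K F, ∃ P' : Place K F', P'.restrict F = P) : Place K F → Place k Ft :=
  fun P => (rOf H' (Classical.choose (hlo P))).restrict Ft

/-- the descended map does not depend on the choices. -/
theorem rDesc_restrict (hc : RedCompat R R') (H' : LSpaceHyp R' g c)
    (x₀ : F) [IsGen K x₀] (xt₀ : Ft) [IsGen k xt₀]
    (u : R.Rw) (hutr : Transcendental k (R.red u))
    (hfr : Module.finrank K⟮algebraMap F F' (u : F)⟯ F' ≤
      Module.finrank k⟮algebraMap Ft Ft' (R.red u)⟯ Ft')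
    (hlo : ∀ P : Place K F, ∃ P' : Place K F', P'.restrict F = P) (P' : Place K F') :
    rDesc H' hlo (P'.restrict F) = (rOf H' P').restrict Ft :=
  restrict_rOf_eq hc H' (finrank_eq_of_chart hc x₀ u hutr hfr) x₀ xt₀ u hutr hfr
    (Classical.choose_spec (hlo (P'.restrict F)))

/-- the generic fundamental identity, all degrees being one. -/
theorem sum_ramificationIndex_generic (x₀ : F) [IsGen K x₀] (P : Place K F) :
    ∑ w ∈ P.fiber F', (w.ramificationIndex F : ℤ) = (Module.finrank F F' : ℤ) := by
  have : IsGen K (algebraMap F F' x₀) :=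
    Fermat.Agent.DS.P4.GenTower.isGen_algebraMap_of_finite x₀
  have hFI := Fermat.Agent.GJ.HInputs.fundamentalIdentity (K := K) (F := F) (F' := F')
    (fun v => PlaceB.deg_eq_one v x₀) (fun w => PlaceB.deg_eq_one w (algebraMap F F' x₀))
  have h := hFI.sum_ramificationIndex_mul_deg P
  rw [PlaceB.deg_eq_one P x₀, Nat.cast_one, mul_one] at h
  rw [← h]
  refine Finset.sum_congr rfl fun w _ => ?_
  rw [PlaceB.deg_eq_one w (algebraMap F F' x₀), Nat.cast_one, mul_one]

/-- **the weighted formula**: `n · (r_* div y)(Q) = (∑_{Q' | Q} e(Q' | Q)) · ord_Q (red y)`. -/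
theorem weighted_formula (hc : RedCompat R R') (H' : LSpaceHyp R' g c) (x₀ : F) [IsGen K x₀]
    {r : Place K F → Place k Ft}
    (hr : ∀ P' : Place K F', r (P'.restrict F) = (rOf H' P').restrict Ft)
    {y : R.Rw} (hy : R.red y ≠ 0) {Dy : Divisor K F} (hDy : ∀ P, Dy P = P.ord (y : F))
    (Q : Place k Ft) :
    (Module.finrank F F' : ℤ) * Finsupp.mapDomain r Dy Q =
      (∑ Q' ∈ Q.fiber Ft', (Q'.ramificationIndex Ft : ℤ)) * Q.ord (R.red y) := by
  classical
  set Dy' : Divisor K F' := Divisor.pullback F' Dy with hDy'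
  have hDy'ord : ∀ P' : Place K F', Dy' P' = P'.ord ((hc.incl y : R'.Rw) : F') :=
    fun P' => Divisor.pullback_apply_eq_ord hDy P'
  have hy' : R'.red (hc.incl y) ≠ 0 := by
    rw [hc.red_incl]
    exact (map_ne_zero_iff _ (algebraMap Ft Ft').injective).mpr hy
  have hup : ∀ Q' : Place k Ft', Finsupp.mapDomain (rOf H') Dy' Q' =
      Q'.ord (algebraMap Ft Ft' (R.red y)) := by
    intro Q'
    rw [mapDomain_rOf_principal H' hy' hDy'ord Q', hc.red_incl]
  -- the two computations of `(restrict ∘ r')_* Dy'`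
  have h1 : Finsupp.mapDomain (fun Q' : Place k Ft' => Q'.restrict Ft)
      (Finsupp.mapDomain (rOf H') Dy') Q =
      (∑ Q' ∈ Q.fiber Ft', (Q'.ramificationIndex Ft : ℤ)) * Q.ord (R.red y) := by
    rw [mapDomain_restrict_apply, Finset.sum_mul]
    refine Finset.sum_congr rfl fun Q' hQ' => ?_
    rw [hup Q', Q'.ord_restrict, Place.mem_fiber.mp hQ']
  have h2 : Finsupp.mapDomain (fun Q' : Place k Ft' => Q'.restrict Ft)
      (Finsupp.mapDomain (rOf H') Dy') =
      Finsupp.mapDomain r (Finsupp.mapDomain (fun P' : Place K F' => P'.restrict F) Dy') := by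
    rw [← Finsupp.mapDomain_comp, ← Finsupp.mapDomain_comp]
    congr 1
    funext P'
    exact (hr P').symm
  have h3 : Finsupp.mapDomain (fun P' : Place K F' => P'.restrict F) Dy' =
      (Module.finrank F F' : ℤ) • Dy := by
    ext P
    rw [hDy', mapDomain_restrict_pullback_apply, sum_ramificationIndex_generic x₀,
      Finsupp.smul_apply, smul_eq_mul]
  rw [← h1, h2, h3, Finsupp.mapDomain_smul, Finsupp.smul_apply, smul_eq_mul]

/-- **the fundamental identity on the special fibre**: `∑_{Q' | Q} e(Q' | Q) = [Ft' : Ft]`. -/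
theorem sum_ramificationIndex_special (hc : RedCompat R R') (H' : LSpaceHyp R' g c)
    (hn : Module.finrank F F' = Module.finrank Ft Ft')
    (x₀ : F) [IsGen K x₀] (xt₀ : Ft) [IsGen k xt₀]
    {r : Place K F → Place k Ft}
    (hr : ∀ P' : Place K F', r (P'.restrict F) = (rOf H' P').restrict Ft)
    (hlot : ∀ Q : Place k Ft, ∃ Q' : Place k Ft', Q'.restrict Ft = Q) (Q : Place k Ft) :
    ∑ Q' ∈ Q.fiber Ft', (Q'.ramificationIndex Ft : ℤ) = (Module.finrank Ft Ft' : ℤ) := by
  classical
  have : IsGen k (algebraMap Ft Ft' xt₀) :=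
    Fermat.Agent.DS.P4.GenTower.isGen_algebraMap_of_finite xt₀
  have : HasPrincipalDivisors K F := Fermat.Agent.GJ.FF.PrincipalOf.hasPrincipalDivisors_gen x₀
  refine sum_ramificationIndex_eq_of_dvd xt₀ (fun Q => PlaceB.deg_eq_one Q xt₀)
    (fun Q' => PlaceB.deg_eq_one Q' (algebraMap Ft Ft' xt₀))
    (fun Q => ?_) (fun Q => ?_) Q
  · obtain ⟨Q', hQ'⟩ := hlot Q
    exact ⟨Q', Place.mem_fiber.mpr hQ'⟩
  · obtain ⟨π, hπ⟩ := IsDiscreteValuationRing.exists_irreducible Q.toValuationSubring
    have hord : Q.ord (π : Ft) = 1 := Q.ord_coe_irreducible hπ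
    obtain ⟨y, hy⟩ := R.red_surjective (π : Ft)
    have hπ0 : (π : Ft) ≠ 0 := fun h => by rw [h, Place.ord_zero] at hord; omega
    have hy0 : R.red y ≠ 0 := by rw [hy]; exact hπ0
    have hyF0 : (y : F) ≠ 0 := coe_ne_zero_of_red_ne_zero hy0
    obtain ⟨Dy, hDy, -⟩ := HasPrincipalDivisors.exists_divisor (K := K) (y : F) hyF0
    have hw := weighted_formula hc H' x₀ hr hy0 hDy Q
    rw [hy, hord, mul_one, hn] at hw
    exact ⟨_, hw.symm⟩

/-- **the fibre formula for the descended map**: `r_* (div y) = div (red y)` for `y ∈ Rw`. -/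
theorem isRedMap_of_restrict (hc : RedCompat R R') (H' : LSpaceHyp R' g c)
    (hn : Module.finrank F F' = Module.finrank Ft Ft')
    (x₀ : F) [IsGen K x₀] (xt₀ : Ft) [IsGen k xt₀]
    {r : Place K F → Place k Ft}
    (hr : ∀ P' : Place K F', r (P'.restrict F) = (rOf H' P').restrict Ft)
    (hlot : ∀ Q : Place k Ft, ∃ Q' : Place k Ft', Q'.restrict Ft = Q) : IsRedMap R r := by
  intro y hy Dy hDy Q
  have hw := weighted_formula hc H' x₀ hr hy hDy Q
  rw [sum_ramificationIndex_special hc H' hn x₀ xt₀ hr hlot Q, hn] at hw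
  have hpos : (0 : ℤ) < (Module.finrank Ft Ft' : ℤ) := by
    exact_mod_cast (Module.finrank_pos : 0 < Module.finrank Ft Ft')
  exact mul_left_cancel₀ hpos.ne' hw

end Desc

/-! ### compatibility with pull-back: `r'_* π^* = π~^* r_*` -/

section Compat

variable {K F F' k Ft Ft' : Type*} [Field K] [Field F] [Field F'] [Field k] [Field Ft] [Field Ft']
  [Algebra K F] [Algebra K F'] [Algebra F F'] [IsScalarTower K F F'] [FiniteDimensional F F']
  [Algebra k Ft] [Algebra k Ft'] [Algebra Ft Ft'] [IsScalarTower k Ft Ft']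
  [FiniteDimensional Ft Ft']
variable {R : RedData K F k Ft} {R' : RedData K F' k Ft'} {g c : ℤ}
variable [FiniteResidues K F'] [HasPrincipalDivisors K F'] [Nonempty (Place K F')]
variable [FiniteResidues k Ft'] [HasPrincipalDivisors k Ft'] [Nonempty (Place k Ft')]
variable [IsAlgClosed K] [CharZero K] [IsAlgClosed k]

/-- the defect of commutation of reduction and pull-back. -/
def defectPull (H' : LSpaceHyp R' g c) (r : Place K F → Place k Ft) :
    Divisor K F →+ (Place k Ft' →₀ ℤ) :=
  (Finsupp.mapDomain.addMonoidHom (rOf H')).comp (Divisor.pullback F') -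
    (Divisor.pullback Ft').comp (Finsupp.mapDomain.addMonoidHom r)

theorem defectPull_apply (H' : LSpaceHyp R' g c) (r : Place K F → Place k Ft) (D : Divisor K F) :
    defectPull H' r D = Finsupp.mapDomain (rOf H') (Divisor.pullback F' D) -
      Divisor.pullback Ft' (Finsupp.mapDomain r D) := rfl

/-- the defect kills the divisors of the elements of `Rw` with nonzero reduction. -/
theorem defectPull_of_mem_Rw (hc : RedCompat R R') (H' : LSpaceHyp R' g c)
    {r : Place K F → Place k Ft} (hred : IsRedMap R r)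
    {y : R.Rw} (hy : R.red y ≠ 0) {Dy : Divisor K F} (hDy : ∀ P, Dy P = P.ord (y : F)) :
    defectPull H' r Dy = 0 := by
  rw [defectPull_apply, sub_eq_zero]
  ext Q'
  have hDy'ord : ∀ P' : Place K F', Divisor.pullback F' Dy P' =
      P'.ord ((hc.incl y : R'.Rw) : F') :=
    fun P' => Divisor.pullback_apply_eq_ord hDy P'
  have hy' : R'.red (hc.incl y) ≠ 0 := by
    rw [hc.red_incl]
    exact (map_ne_zero_iff _ (algebraMap Ft Ft').injective).mpr hy
  rw [mapDomain_rOf_principal H' hy' hDy'ord Q', hc.red_incl, Divisor.pullback_apply,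
    hred y hy Dy hDy, ← Place.ord_restrict]

/-- the defect kills principal divisors. -/
theorem defectPull_principal (hc : RedCompat R R') (H' : LSpaceHyp R' g c)
    (hunram : ∀ x : F, x ≠ 0 → ∃ a : K, a ≠ 0 ∧
      x / algebraMap K F a ∈ R.Rw ∧ (x / algebraMap K F a)⁻¹ ∈ R.Rw)
    {r : Place K F → Place k Ft} (hred : IsRedMap R r)
    {D : Divisor K F} (hD : D ∈ Divisor.principal (K := K) (F := F)) :
    defectPull H' r D = 0 := by
  obtain ⟨f, hf, hDf⟩ := hD
  obtain ⟨a, ha, hmem, hinv⟩ := hunram f hf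
  have ha' : algebraMap K F a ≠ 0 := (map_ne_zero_iff _ (algebraMap K F).injective).mpr ha
  set y : R.Rw := ⟨f / algebraMap K F a, hmem⟩ with hy
  have hyF0 : (y : F) ≠ 0 := div_ne_zero hf ha'
  have hyred : R.red y ≠ 0 := by
    intro h0
    have h1 : y * ⟨(f / algebraMap K F a)⁻¹, hinv⟩ = 1 := Subtype.ext (mul_inv_cancel₀ hyF0)
    have h2 := congrArg R.red h1
    rw [map_mul, h0, zero_mul, map_one] at h2
    exact zero_ne_one h2
  refine defectPull_of_mem_Rw hc H' hred hyred (fun P => ?_)
  rw [hDf P]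
  show P.ord f = P.ord (f / algebraMap K F a)
  rw [div_eq_mul_inv, P.ord_mul hf (inv_ne_zero ha'), P.ord_inv, PlaceB.ord_algebraMap P ha,
    neg_zero, add_zero]

open Fermat.Agent.GJ.S37BoundedES Fermat.Agent.GJ.S37BoundedRR in
/-- the defect is bounded on places. -/
theorem norm1_defectPull_single_le (H' : LSpaceHyp R' g c)
    (x₀ : F) [IsGen K x₀] (xt₀ : Ft) [IsGen k xt₀] (r : Place K F → Place k Ft)
    (hsum : ∀ Q : Place k Ft,
      ∑ Q' ∈ Q.fiber Ft', (Q'.ramificationIndex Ft : ℤ) = (Module.finrank Ft Ft' : ℤ))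
    (P : Place K F) :
    norm1 (defectPull H' r (Finsupp.single P 1)) ≤
      Module.finrank F F' + Module.finrank Ft Ft' := by
  classical
  have : IsGen K (algebraMap F F' x₀) :=
    Fermat.Agent.DS.P4.GenTower.isGen_algebraMap_of_finite x₀
  have : IsGen k (algebraMap Ft Ft' xt₀) :=
    Fermat.Agent.DS.P4.GenTower.isGen_algebraMap_of_finite xt₀
  have hFI : FundamentalIdentity K F F' :=
    Fermat.Agent.GJ.HInputs.fundamentalIdentity (K := K) (F := F) (F' := F')
      (fun v => PlaceB.deg_eq_one v x₀) (fun w => PlaceB.deg_eq_one w (algebraMap F F' x₀))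
  have hFIt : FundamentalIdentity k Ft Ft' := ⟨fun v => by
    rw [PlaceB.deg_eq_one v xt₀, Nat.cast_one, mul_one, ← hsum v]
    refine Finset.sum_congr rfl fun w _ => ?_
    rw [PlaceB.deg_eq_one w (algebraMap Ft Ft' xt₀), Nat.cast_one, mul_one]⟩
  rw [defectPull_apply]
  refine (norm1_sub_le _ _).trans (add_le_add ?_ ?_)
  · refine (norm1_mapDomain_le _ _).trans ?_
    have h0 : (0 : Divisor K F') ≤ Divisor.pullback F' (Finsupp.single P 1) :=
      pullback_nonneg (Finsupp.single_nonneg.mpr zero_le_one)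
    have h1 := norm1_le_degree h0
    rw [Divisor.degree_pullback, Divisor.degree_single, PlaceB.deg_eq_one P x₀] at h1
    have h2 : (norm1 (Divisor.pullback F' (Finsupp.single P (1 : ℤ))) : ℤ) ≤
        (Module.finrank F F' : ℤ) := by simpa using h1
    exact_mod_cast h2
  · rw [Finsupp.mapDomain_single]
    have h0 : (0 : Divisor k Ft') ≤ Divisor.pullback Ft' (Finsupp.single (r P) 1) :=
      pullback_nonneg (Finsupp.single_nonneg.mpr zero_le_one)
    have h1 := norm1_le_degree h0
    rw [Divisor.degree_pullback, Divisor.degree_single, PlaceB.deg_eq_one (r P) xt₀] at h1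
    have h2 : (norm1 (Divisor.pullback Ft' (Finsupp.single (r P) (1 : ℤ))) : ℤ) ≤
        (Module.finrank Ft Ft' : ℤ) := by simpa using h1
    exact_mod_cast h2

/-- the defect at a place is supported above the reduction of the place. -/
theorem defectPull_single_apply_eq_zero (H' : LSpaceHyp R' g c)
    {r : Place K F → Place k Ft}
    (hr : ∀ P' : Place K F', r (P'.restrict F) = (rOf H' P').restrict Ft)
    (P : Place K F) {Q' : Place k Ft'} (hQ' : Q'.restrict Ft ≠ r P) :
    defectPull H' r (Finsupp.single P 1) Q' = 0 := by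
  classical
  rw [defectPull_apply, Finsupp.sub_apply, Finsupp.mapDomain_single,
    Divisor.pullback_single_apply_of_restrict_ne hQ', sub_zero, mapDomain_apply_eq_sum]
  refine Finset.sum_eq_zero fun P' hP' => ?_
  have hP'Q : rOf H' P' = Q' := (Finset.mem_filter.mp hP').2
  refine Divisor.pullback_single_apply_of_restrict_ne (fun hPP => hQ' ?_) 1
  rw [← hP'Q, ← hr P', hPP]

/-- **compatibility of reduction and pull-back**: `r'_* π^* D = π~^* r_* D`. -/
theorem mapDomain_rOf_pullback (hc : RedCompat R R') (H' : LSpaceHyp R' g c)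
    (hn : Module.finrank F F' = Module.finrank Ft Ft')
    (x₀ : F) [IsGen K x₀] (xt₀ : Ft) [IsGen k xt₀]
    (hunram : ∀ x : F, x ≠ 0 → ∃ a : K, a ≠ 0 ∧
      x / algebraMap K F a ∈ R.Rw ∧ (x / algebraMap K F a)⁻¹ ∈ R.Rw)
    {r : Place K F → Place k Ft}
    (hr : ∀ P' : Place K F', r (P'.restrict F) = (rOf H' P').restrict Ft)
    (hlot : ∀ Q : Place k Ft, ∃ Q' : Place k Ft', Q'.restrict Ft = Q) (D : Divisor K F) :
    Finsupp.mapDomain (rOf H') (Divisor.pullback F' D) =
      Divisor.pullback Ft' (Finsupp.mapDomain r D) := by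
  classical
  have hred : IsRedMap R r := isRedMap_of_restrict hc H' hn x₀ xt₀ hr hlot
  have hsum := sum_ramificationIndex_special hc H' hn x₀ xt₀ hr hlot
  have : FiniteResidues K F := Fermat.Agent.GJ.FF.finiteResidues (K := K) x₀
  have : HasPrincipalDivisors K F := Fermat.Agent.GJ.FF.PrincipalOf.hasPrincipalDivisors_gen x₀
  -- vanishing on `Div⁰`
  have hzero : ∀ E ∈ Divisor.degZero (K := K) (F := F), defectPull H' r E = 0 := fun E hE =>
    Fermat.Agent.GJ.S37BoundedRR.eq_zero_on_degZero_of_riemann (defectPull H' r)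
      (fun E hE => defectPull_principal hc H' hunram hred hE) _
      (norm1_defectPull_single_le H' x₀ xt₀ r hsum) hE
  -- the defect at a place does not depend on the place
  have hconst : ∀ P P₀ : Place K F,
      defectPull H' r (Finsupp.single P 1) = defectPull H' r (Finsupp.single P₀ 1) := by
    intro P P₀
    have hmem : (Finsupp.single P 1 - Finsupp.single P₀ 1 : Divisor K F) ∈
        Divisor.degZero (K := K) (F := F) := by
      rw [Divisor.mem_degZero, map_sub, Divisor.degree_single, Divisor.degree_single,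
        PlaceB.deg_eq_one P x₀, PlaceB.deg_eq_one P₀ x₀, sub_self]
    have := hzero _ hmem
    rwa [map_sub, sub_eq_zero] at this
  -- `r` is surjective and `Ft` has two places
  have hsurj : Function.Surjective r := by
    intro Q
    obtain ⟨Q', hQ'⟩ := hlot Q
    obtain ⟨P', hP'⟩ := rOf_surjective H' Q'
    exact ⟨P'.restrict F, by rw [hr P', hP', hQ']⟩
  obtain ⟨Q₁, hQ₁⟩ := Fermat.Agent.GJ.FF.exists_place_ord_pos xt₀
    (IsGen.transcendental (K := k) (x := xt₀))
  obtain ⟨Q₂, hQ₂⟩ := Fermat.Agent.GJ.FF.exists_place_ord_neg xt₀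
    (IsGen.transcendental (K := k) (x := xt₀))
  have hQne : Q₁ ≠ Q₂ := fun h => by rw [h] at hQ₁; omega
  obtain ⟨P₁, hP₁⟩ := hsurj Q₁
  obtain ⟨P₂, hP₂⟩ := hsurj Q₂
  have hsingle : ∀ P : Place K F, defectPull H' r (Finsupp.single P 1) = 0 := by
    intro P
    ext Q'
    rw [Finsupp.zero_apply]
    by_cases h1 : Q'.restrict Ft = Q₁
    · rw [hconst P P₂]
      exact defectPull_single_apply_eq_zero H' hr P₂ (by rw [hP₂, h1]; exact hQne)
    · rw [hconst P P₁]
      exact defectPull_single_apply_eq_zero H' hr P₁ (by rw [hP₁]; exact h1)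
  have hall : defectPull H' r = 0 := by
    apply Finsupp.addHom_ext
    intro P n
    have : (Finsupp.single P n : Divisor K F) = n • Finsupp.single P 1 := by
      rw [Finsupp.smul_single, smul_eq_mul, mul_one]
    rw [this, map_zsmul, hsingle P, smul_zero, AddMonoidHom.zero_apply]
  have := DFunLike.congr_fun hall D
  rwa [defectPull_apply, AddMonoidHom.zero_apply, sub_eq_zero] at this

/-- **consumer form**: two places with the same reduction have pull-backs with the same
reduction. -/
theorem mapDomain_rOf_pullback_sub_eq_zero (hc : RedCompat R R') (H' : LSpaceHyp R' g c)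
    (hn : Module.finrank F F' = Module.finrank Ft Ft')
    (x₀ : F) [IsGen K x₀] (xt₀ : Ft) [IsGen k xt₀]
    (hunram : ∀ x : F, x ≠ 0 → ∃ a : K, a ≠ 0 ∧
      x / algebraMap K F a ∈ R.Rw ∧ (x / algebraMap K F a)⁻¹ ∈ R.Rw)
    {r : Place K F → Place k Ft}
    (hr : ∀ P' : Place K F', r (P'.restrict F) = (rOf H' P').restrict Ft)
    (hlot : ∀ Q : Place k Ft, ∃ Q' : Place k Ft', Q'.restrict Ft = Q)
    {x y : Place K F} (hxy : r x = r y) :
    Finsupp.mapDomain (rOf H')
      (Divisor.pullback F' (Finsupp.single x 1 - Finsupp.single y 1)) = 0 := by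
  rw [mapDomain_rOf_pullback hc H' hn x₀ xt₀ hunram hr hlot, Finsupp.mapDomain_sub,
    Finsupp.mapDomain_single, Finsupp.mapDomain_single, hxy, sub_self, map_zero]

end Compat

end Fermat.Agent.GZ.Aux23

end
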