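/-
GATE-Z / GZ-AUX23, LEAF E (helper46; skeleton and statements of helper18, board 6334, verbatim):
the MODULAR INSTANCE of the abstract frame `GZ/Aux23/Frame.lean` for two levels `N ∣ N'`.

* (E1) `fullC_le_of_dvd`, `fibIncl`, `finiteAlong_fibIncl` : the special-fibre fields are nested,
  and the extension is finite;
* (E2) `redCompat` : the two reduction data `redDataFull N A hle`, `redDataFull N' A hle'` are
  compatible along `levelIncl` / `fibIncl`;
* `red_jF_full` : the reduction of `j` is `j~`;
* (E3) `chart_degree` : the chart `j` of level `N` keeps its degree at the level `N'`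
  (M-DEG at level `N'`).
-/
import Mathlib
import Fermat.Agent.GZ.Aux23.Frame
import Fermat.Agent.GJ.S37.Bridge
import Fermat.Agent.GJ.S37.AuxPullModular
import Fermat.Agent.GJ.J1.FibreFinal
import Fermat.Agent.GJ.J1.Gauss.DegAtJ
import Fermat.Agent.GJ.J1.Haupt.ChartRed

set_option autoImplicit false
set_option synthInstance.maxHeartbeats 400000
set_option maxHeartbeats 1000000
noncomputable section
open AlgebraicCurve ModularCurve IntermediateField
namespace Fermat.Agent.GZ.Aux23.Inst
open Fermat.Agent.S24 Fermat.Agent.GJ.J1 Fermat.Agent.GJ.J1.Val Fermat.Agent.GJ.S37Bridge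
  Fermat.Agent.GJ.S37Aux Fermat.Agent.GJ.FibreCurve

local notation "Kbar" => AlgebraicClosure ℚ
local notation "FN" => modularFunctionFieldBar

/-! ### generic: two fields of Laurent series, one inside the other -/

section Generic

variable {L : Type*} [Field L] {A : ValuationSubring L}
  {F F' : IntermediateField L (LaurentSeries L)} (hGF : HasGaussFrac A F)
  (hGF' : HasGaussFrac A F')

/-- the Gauss valuation ring of `F` maps into the one of `F'` -/
theorem mem_Rw_of_le (hle : F ≤ F') {x : F} {x' : F'}
    (hxx : (x' : LaurentSeries L) = (x : LaurentSeries L)) (hx : x ∈ Rw A F hGF) :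
    x' ∈ Rw A F' hGF' := by
  obtain ⟨a, b, ha, hb, hb0, hab⟩ := hx
  exact ⟨a, b, hle ha, hle hb, hb0, by rw [hxx]; exact hab⟩

/-- the reduction maps agree (as Laurent series over the residue field) -/
theorem redL_of_le (hle : F ≤ F') {x : F} {x' : F'}
    (hxx : (x' : LaurentSeries L) = (x : LaurentSeries L)) (hx : x ∈ Rw A F hGF)
    (hx' : x' ∈ Rw A F' hGF') :
    redL A F' hGF' ⟨x', hx'⟩ = redL A F hGF ⟨x, hx⟩ := by
  obtain ⟨a, b, ha, hb, hb0, hab⟩ := hx
  have h1 : IsFrac A F (((⟨x, ⟨a, b, ha, hb, hb0, hab⟩⟩ : Rw A F hGF) : F) : LaurentSeries L) a b :=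
    ⟨ha, hb, hb0, hab⟩
  have h2 : IsFrac A F' (((⟨x', hx'⟩ : Rw A F' hGF') : F') : LaurentSeries L) a b :=
    ⟨hle ha, hle hb, hb0, by rw [hxx]; exact hab⟩
  rw [redL_eq h1, redL_eq h2]

/-- the degree over a simple subextension only depends on the underlying set of the field -/
theorem finrank_adjoin_congr {κ M : Type*} [Field κ] [Field M] [Algebra κ M]
    {E₁ E₂ : IntermediateField κ M} (hE : E₁ = E₂) {y : M} (hy₁ : y ∈ E₁) (hy₂ : y ∈ E₂) :
    Module.finrank κ⟮(⟨y, hy₁⟩ : E₁)⟯ E₁ = Module.finrank κ⟮(⟨y, hy₂⟩ : E₂)⟯ E₂ := by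
  subst hE
  rfl

end Generic

variable {N N' : ℕ} [NeZero N] [NeZero N'] (h : N ∣ N')

section Fib
variable (k : Type*) [Field k]

include h in
/-- (E1) the special-fibre fields are nested. -/
theorem fullC_le_of_dvd : modularFunctionFieldFullC k N ≤ modularFunctionFieldFullC k N' :=
  full_degeneracyC_le k h

/-- the inclusion of the special-fibre fields -/
def fibIncl : modularFunctionFieldFullC k N →ₐ[k] modularFunctionFieldFullC k N' :=
  IntermediateField.inclusion (fullC_le_of_dvd h k)

theorem coe_fibIncl (x : modularFunctionFieldFullC k N) :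
    ((fibIncl h k x : modularFunctionFieldFullC k N') : LaurentSeries k) = (x : LaurentSeries k) :=
  IntermediateField.coe_inclusion (fullC_le_of_dvd h k) x

theorem fibIncl_jFib : fibIncl h k (jFib k N) = jFib k N' := rfl

/-- (E1) finiteness of the special-fibre extension -/
theorem finiteAlong_fibIncl (A : ValuationSubring Kbar) (π : A →+* k) :
    FiniteAlong k (fibIncl h k) := by
  have hN' : IsGen k (jFib k N') := isGen_jFib (k := k) N' A π
  have hfd : FiniteDimensional k⟮fibIncl h k (jFib k N)⟯ (modularFunctionFieldFullC k N') := by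
    rw [fibIncl_jFib]; exact hN'.finite
  exact Fermat.Agent.GJ.HInputs.finiteAlong_of_gen _ (jFib k N)

end Fib

variable (A : ValuationSubring Kbar)

/-- shortcut instance (the generic search through `IntermediateField` is slow here) -/
local instance instAlgebraFullAuxE (M : ℕ) [NeZero M] : Algebra (IsLocalRing.ResidueField A)
    (modularFunctionFieldFullC (IsLocalRing.ResidueField A) M) := inferInstance

/-- (E2) the two reduction data are compatible. -/
theorem redCompat
    (hle : FresBar N A ≤ modularFunctionFieldFullC (IsLocalRing.ResidueField A) N)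
    (hle' : FresBar N' A ≤ modularFunctionFieldFullC (IsLocalRing.ResidueField A) N') :
    letI := algebraAlong (levelIncl Kbar h)
    letI := algebraAlong (fibIncl h (IsLocalRing.ResidueField A))
    RedCompat (redDataFull N A hle) (redDataFull N' A hle') := by
  letI := algebraAlong (levelIncl Kbar h)
  letI := algebraAlong (fibIncl h (IsLocalRing.ResidueField A))
  have hFF : FN N ≤ FN N' := Fermat.Agent.GJ.J1.Desc.fieldL_le (L := Kbar) h
  have hcoe : ∀ x : FN N, ((algebraMap (FN N) (FN N') x : FN N') : LaurentSeries Kbar)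
      = (x : LaurentSeries Kbar) := fun x => coe_levelIncl Kbar h x
  have hmem : ∀ x : FN N, x ∈ (redDataFull N A hle).Rw →
      algebraMap (FN N) (FN N') x ∈ (redDataFull N' A hle').Rw := fun x hx =>
    mem_Rw_of_le (hasGaussFrac_bar N A) (hasGaussFrac_bar N' A) hFF (hcoe x) hx
  refine ⟨hmem, fun x hx => ?_⟩
  apply Subtype.ext
  have h1 : (((redDataFull N' A hle').red ⟨algebraMap (FN N) (FN N') x, hmem x hx⟩ :
      modularFunctionFieldFullC (IsLocalRing.ResidueField A) N') :
      LaurentSeries (IsLocalRing.ResidueField A)) =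
      redL A (FN N') (hasGaussFrac_bar N' A) ⟨algebraMap (FN N) (FN N') x, hmem x hx⟩ := rfl
  have h2 : ((algebraMap (modularFunctionFieldFullC (IsLocalRing.ResidueField A) N)
      (modularFunctionFieldFullC (IsLocalRing.ResidueField A) N')
      ((redDataFull N A hle).red ⟨x, hx⟩) :
      modularFunctionFieldFullC (IsLocalRing.ResidueField A) N') :
      LaurentSeries (IsLocalRing.ResidueField A)) =
      redL A (FN N) (hasGaussFrac_bar N A) ⟨x, hx⟩ :=
    coe_fibIncl h (IsLocalRing.ResidueField A) _
  rw [h1, h2]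
  exact redL_of_le (hasGaussFrac_bar N A) (hasGaussFrac_bar N' A) hFF (hcoe x) hx (hmem x hx)

/-- `j ∈ Rw` in the `redDataFull` frame -/
theorem jF_mem_RwFull
    (hle : FresBar N A ≤ modularFunctionFieldFullC (IsLocalRing.ResidueField A) N) :
    jF N ∈ (redDataFull N A hle).Rw := Fermat.Agent.GJ.J1.Haupt.jF_mem_Rw N A

/-- the reduction of `j` is `j~` -/
theorem red_jF_full
    (hle : FresBar N A ≤ modularFunctionFieldFullC (IsLocalRing.ResidueField A) N) :
    (redDataFull N A hle).red ⟨jF N, jF_mem_RwFull A hle⟩ = jFib (IsLocalRing.ResidueField A) N := by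
  apply Subtype.ext
  rw [coe_red_redDataFull]
  exact Fermat.Agent.GJ.J1.Haupt.coe_red_jF N A

/-- (E3) the chart `j` of level `N` keeps its degree at the level `N'` (M-DEG at level `N'`). -/
theorem chart_degree {ℓ : ℕ} [Fact ℓ.Prime] (hℓN' : ¬ ℓ ∣ N') (hA : A.LiesOverPrime ℓ)
    (hle : FresBar N A ≤ modularFunctionFieldFullC (IsLocalRing.ResidueField A) N)
    (hle' : FresBar N' A ≤ modularFunctionFieldFullC (IsLocalRing.ResidueField A) N') :
    letI := algebraAlong (levelIncl Kbar h)
    letI := algebraAlong (fibIncl h (IsLocalRing.ResidueField A))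
    Module.finrank Kbar⟮algebraMap (FN N) (FN N') (jF N)⟯ (FN N') ≤
      Module.finrank (IsLocalRing.ResidueField A)⟮algebraMap
        (modularFunctionFieldFullC (IsLocalRing.ResidueField A) N)
        (modularFunctionFieldFullC (IsLocalRing.ResidueField A) N')
        ((redDataFull N A hle).red ⟨jF N, jF_mem_RwFull A hle⟩)⟯
        (modularFunctionFieldFullC (IsLocalRing.ResidueField A) N') := by
  letI := algebraAlong (levelIncl Kbar h)
  letI := algebraAlong (fibIncl h (IsLocalRing.ResidueField A))
  -- upstairs: `j` of level `N` is `j` of level `N'`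
  have e1 : algebraMap (FN N) (FN N') (jF N) = jF N' := by
    show levelIncl Kbar h (jF N) = jF N'
    rw [← Fermat.Agent.GJ.HInputs.jGenL_bar_eq N, ← Fermat.Agent.GJ.HInputs.jGenL_bar_eq N']
    exact levelIncl_jGenL Kbar h
  -- downstairs: `j~` of level `N` is `j~` of level `N'`
  have e2 : algebraMap (modularFunctionFieldFullC (IsLocalRing.ResidueField A) N)
      (modularFunctionFieldFullC (IsLocalRing.ResidueField A) N')
      ((redDataFull N A hle).red ⟨jF N, jF_mem_RwFull A hle⟩) =
      jFib (IsLocalRing.ResidueField A) N' := by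
    rw [red_jF_full A hle]
    exact fibIncl_jFib h (IsLocalRing.ResidueField A)
  rw [e1, e2]
  -- M-DEG at level `N'`, in the `FresBar` frame
  have hdeg := Fermat.Agent.GJ.GaussDeg.finrank_jF_le N' A hℓN' hA
  refine hdeg.trans (le_of_eq ?_)
  have hEq : FresBar N' A = modularFunctionFieldFullC (IsLocalRing.ResidueField A) N' :=
    le_antisymm hle' (full_le_FresBar N' A)
  have hred : (redDataBar N' A).red ⟨jF N', Fermat.Agent.GJ.J1.Haupt.jF_mem_Rw N' A⟩ =
      (⟨jqModC (IsLocalRing.ResidueField A),
        by rw [← Fermat.Agent.GJ.J1.Haupt.coe_red_jF N' A]; exact Subtype.property _⟩ :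
        FresBar N' A) :=
    Subtype.ext (Fermat.Agent.GJ.J1.Haupt.coe_red_jF N' A)
  rw [hred]
  exact finrank_adjoin_congr hEq _ _

end Fermat.Agent.GZ.Aux23.Inst
end
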