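/-
GATE-Z / GZ-AUX23, LEAF D (helper46; statement of helper18, board 6334, verbatim):
**char-free lying-over for places of function fields**.

For a finite (integral) extension `F'/F` of function fields in one variable over an algebraically
closed field `K`, every place `P` of `F` is the restriction of a place `P'` of `F'`.

Proof: by Riemann's theorem (`RR.Bound.riemann_theorem`) `l(mP) ≥ 2` for `m` large, so there is a
non-constant `f ∈ L(mP)`: its only possible pole is `P`.  The image of `f` in `F'` is still
non-constant, so it has a pole `P'` (functions without poles are constant,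
`GJ/FF/Instances.exists_const_of_forall_ord_nonneg`); by `Place.ord_restrict` the place `P'|F` is a
pole of `f`, hence equals `P`.
-/
import Mathlib
import Fermat.Prelude.Def_AlgebraicCurve_DivisorPushPull
import Fermat.Agent.GJ.FF.Instances
import Fermat.Agent.RR.RiemannTheorem

set_option autoImplicit false
noncomputable section
open AlgebraicCurve
namespace Fermat.Agent.GZ.Aux23
open Fermat.Agent.S24

/-- a non-constant function with (at most) one pole, at a given place `P` -/
theorem exists_nonconst_pole_only_at {K F : Type*} [Field K] [Field F] [Algebra K F]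
    [IsAlgClosed K] (x₀ : F) [IsGen K x₀] (P : Place K F) :
    ∃ f : F, (∀ c : K, f ≠ algebraMap K F c) ∧ ∀ v : Place K F, v ≠ P → 0 ≤ v.ord f := by
  classical
  have : Fermat.Agent.RRh45.FiniteResidues K F := Fermat.Agent.GJ.FF.finiteResidues (K := K) x₀
  have : HasPrincipalDivisors K F :=
    Fermat.Agent.GJ.FF.PrincipalOf.hasPrincipalDivisors_gen (K := K) x₀
  have : Nonempty (Place K F) := ⟨P⟩
  obtain ⟨g, -, -, c, hc⟩ := Fermat.Agent.RR.Bound.riemann_theorem K F
  -- the divisor `m • P`
  set m : ℤ := max (max c (g + 1)) 0 with hm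
  have hm0 : 0 ≤ m := le_max_right _ _
  have hmc : c ≤ m := (le_max_left _ _).trans (le_max_left _ _)
  have hmg : g + 1 ≤ m := (le_max_right _ _).trans (le_max_left _ _)
  set D : Divisor K F := Finsupp.single P m with hD
  have hdegP : (1 : ℤ) ≤ P.deg := by exact_mod_cast Fermat.Agent.RRh45.deg_pos P
  have hdeg : Divisor.degree D = m * P.deg := Divisor.degree_single P m
  have hmle : m ≤ Divisor.degree D := by
    rw [hdeg]
    calc m = m * 1 := (mul_one m).symm
      _ ≤ m * P.deg := mul_le_mul_of_nonneg_left hdegP hm0
  have hfin : (2 : ℤ) ≤ (Module.finrank K (riemannRochSpace D) : ℤ) := by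
    rw [hc D (hmc.trans hmle)]
    linarith
  have hfin' : 2 ≤ Module.finrank K (riemannRochSpace D) := by exact_mod_cast hfin
  -- a non-constant element of `L(D)`
  have hex : ∃ f ∈ riemannRochSpace D, ∀ a : K, f ≠ algebraMap K F a := by
    by_contra hno
    push Not at hno
    have hle : riemannRochSpace D ≤ Submodule.span K {(1 : F)} := by
      intro f hf
      obtain ⟨a, ha⟩ := hno f hf
      rw [ha, Algebra.algebraMap_eq_smul_one]
      exact Submodule.smul_mem _ _ (Submodule.subset_span rfl)
    have hfd : Module.Finite K (Submodule.span K {(1 : F)}) :=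
      Module.Finite.span_singleton K (1 : F)
    have h1 := Submodule.finrank_mono hle
    have h2 : Module.finrank K (Submodule.span K {(1 : F)}) ≤ 1 :=
      (finrank_span_le_card ({(1 : F)} : Set F)).trans (by simp)
    omega
  obtain ⟨f, hfL, hfc⟩ := hex
  refine ⟨f, hfc, fun v hv => ?_⟩
  rcases (mem_riemannRochSpace_iff.mp hfL) v with h0 | h0
  · rw [h0]; simp
  · have hDv : D v = 0 := by
      rw [hD, Finsupp.single_apply, if_neg (Ne.symm hv)]
    rw [hDv] at h0
    simpa using h0

/-- LEAF D (char-free lying-over for places of function fields). -/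
theorem exists_place_restrict_eq_of_isGen {K F F' : Type*} [Field K] [Field F] [Field F']
    [Algebra K F] [Algebra K F'] [Algebra F F'] [IsScalarTower K F F'] [Algebra.IsIntegral F F']
    [IsAlgClosed K] (x₀ : F) [IsGen K x₀] (x₀' : F') [IsGen K x₀'] (P : Place K F) :
    ∃ P' : Place K F', P'.restrict F = P := by
  obtain ⟨f, hfc, hf⟩ := exists_nonconst_pole_only_at (K := K) x₀ P
  -- the image of `f` upstairs is non-constant, hence has a pole
  have hpole : ∃ P' : Place K F', P'.ord (algebraMap F F' f) < 0 := by
    by_contra hno
    push Not at hno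
    obtain ⟨a, ha⟩ :=
      Fermat.Agent.GJ.FF.Fibre.exists_const_of_forall_ord_nonneg (K := K) x₀' hno
    refine hfc a ((algebraMap F F').injective ?_)
    rw [ha, ← IsScalarTower.algebraMap_apply]
  obtain ⟨P', hP'⟩ := hpole
  refine ⟨P', ?_⟩
  by_contra hne
  have h0 := hf (P'.restrict F) hne
  rw [P'.ord_restrict (F := F) f] at hP'
  have hepos : (0 : ℤ) < (Place.ramificationIndex (F := F) P' : ℤ) := by
    exact_mod_cast P'.ramificationIndex_pos (F := F)
  have := mul_nonneg hepos.le h0
  omega

end Fermat.Agent.GZ.Aux23
end
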