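/-
GATE-Z / AUX23 (helper18): the MODULAR INSTANCE of the level descent of the place reduction map.

Levels `N ∣ N'`, a prime `ℓ ∤ N'` with `ℓ = 2 → 3 ∣ N'`, `ℓ = 3 → 2 ∣ N'` (so that the L-space frame
exists at the level `N'`: `lSpaceGate`), `A` a valuation subring of `ℚ̄` over `ℓ`.  NO hypothesis on
the level `N` itself (`N = p`, `ℓ ∈ {2, 3}` allowed: there is no L-space frame at level `p`).

* `exists_descended`   : a place map `r` at level `N` with the fibre formula on the whole Gauss ring
  (`IsRedMap (redDataFull N A hle) r`) and `r'_* π^* D = 0` whenever `r_* D = 0`;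
* `reductionInputsModL_of_aux` : `ReductionInputsModL A N`;
* `exists_isPlaceReductionModL_pullBar` : a place reduction `r` at level `N` such that
  `reductionModL A N' (pullBar h [D]) = 0` for every degree-zero `D` with `r_* D = 0`.
-/
import Mathlib
import Fermat.Agent.GZ.Aux23.Descent
import Fermat.Agent.GZ.Aux23.InstLevel
import Fermat.Agent.GZ.Aux23.LyingOver
import Fermat.Agent.GJ.S37.LSpaceGateProof
import Fermat.Agent.GJ.S37.UniqFrac
import Fermat.Agent.GJ.S37.HeckePullback

set_option autoImplicit false
set_option synthInstance.maxHeartbeats 400000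
set_option maxHeartbeats 1000000
set_option linter.style.haveILetI false

noncomputable section

open AlgebraicCurve ModularCurve IntermediateField

namespace Fermat.Agent.GZ.Aux23.Inst

open Fermat.Agent.RRh45 Fermat.Agent.S24 Fermat.Agent.GJ.J1 Fermat.Agent.GJ.J1.Val
  Fermat.Agent.GJ.S37Bridge Fermat.Agent.GJ.S37Aux Fermat.Agent.GJ.FibreCurve
  Fermat.Agent.GJ.S37LSpace Fermat.Agent.GJ.FF.Fibre Fermat.Agent.GJ.ResidueAlgClosed
  Fermat.Agent.GZ.Aux23.ValuesR

local notation "Kbar" => AlgebraicClosure ℚ
local notation "FN" => modularFunctionFieldBar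

variable {N N' : ℕ} [NeZero N] [NeZero N'] (h : N ∣ N') {A : ValuationSubring Kbar}

/-- shortcut instance (the generic search through `IntermediateField` is slow here) -/
local instance instAlgebraFullAuxI (M : ℕ) [NeZero M] : Algebra (IsLocalRing.ResidueField A)
    (modularFunctionFieldFullC (IsLocalRing.ResidueField A) M) := inferInstance

/-- **the descended place map at level `N`**, from an L-space frame at the level `N'`. -/
theorem exists_descended {ℓ : ℕ} [Fact ℓ.Prime] (hℓN' : ¬ ℓ ∣ N') (hA : A.LiesOverPrime ℓ)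
    (hle : FresBar N A ≤ modularFunctionFieldFullC (IsLocalRing.ResidueField A) N)
    (hle' : FresBar N' A ≤ modularFunctionFieldFullC (IsLocalRing.ResidueField A) N')
    [FiniteResidues Kbar (FN N')] [HasPrincipalDivisors Kbar (FN N')] [Nonempty (Place Kbar (FN N'))]
    [FiniteResidues (IsLocalRing.ResidueField A)
      (modularFunctionFieldFullC (IsLocalRing.ResidueField A) N')]
    [HasPrincipalDivisors (IsLocalRing.ResidueField A)
      (modularFunctionFieldFullC (IsLocalRing.ResidueField A) N')]
    [Nonempty (Place (IsLocalRing.ResidueField A)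
      (modularFunctionFieldFullC (IsLocalRing.ResidueField A) N'))]
    {g c : ℤ} (H' : LSpaceHyp (redDataFull N' A hle') g c) :
    ∃ r : Place Kbar (FN N) → Place (IsLocalRing.ResidueField A)
        (modularFunctionFieldFullC (IsLocalRing.ResidueField A) N),
      IsRedMap (redDataFull N A hle) r ∧
      ∀ D : Divisor Kbar (FN N), Finsupp.mapDomain r D = 0 →
        Finsupp.mapDomain (rOf H')
          (Divisor.pullbackAlong (levelIncl Kbar h) (isIntegral_levelIncl_bar h) D) = 0 := by
  letI : Algebra (FN N) (FN N') := algebraAlong (levelIncl Kbar h)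
  letI : Algebra (modularFunctionFieldFullC (IsLocalRing.ResidueField A) N)
      (modularFunctionFieldFullC (IsLocalRing.ResidueField A) N') :=
    algebraAlong (fibIncl h (IsLocalRing.ResidueField A))
  haveI : IsScalarTower Kbar (FN N) (FN N') := isScalarTower_along (levelIncl Kbar h)
  haveI : IsScalarTower (IsLocalRing.ResidueField A)
      (modularFunctionFieldFullC (IsLocalRing.ResidueField A) N)
      (modularFunctionFieldFullC (IsLocalRing.ResidueField A) N') :=
    isScalarTower_along (fibIncl h (IsLocalRing.ResidueField A))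
  haveI : FiniteDimensional (FN N) (FN N') := finiteAlong_levelIncl_bar h
  haveI : FiniteDimensional (modularFunctionFieldFullC (IsLocalRing.ResidueField A) N)
      (modularFunctionFieldFullC (IsLocalRing.ResidueField A) N') :=
    finiteAlong_fibIncl h (IsLocalRing.ResidueField A) A (IsLocalRing.residue A)
  have hc : RedCompat (redDataFull N A hle) (redDataFull N' A hle') := redCompat h A hle hle'
  haveI : IsGen Kbar (jF N) := S24_helper62.isGen_jF N
  haveI : IsGen Kbar (jF N') := S24_helper62.isGen_jF N'
  haveI : IsGen (IsLocalRing.ResidueField A) (jFib (IsLocalRing.ResidueField A) N) :=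
    isGen_jFib N A (IsLocalRing.residue A)
  haveI : IsGen (IsLocalRing.ResidueField A) (jFib (IsLocalRing.ResidueField A) N') :=
    isGen_jFib N' A (IsLocalRing.residue A)
  set u : (redDataFull N A hle).Rw := ⟨jF N, jF_mem_RwFull A hle⟩ with hu
  have hured : (redDataFull N A hle).red u = jFib (IsLocalRing.ResidueField A) N :=
    red_jF_full A hle
  have hutr : Transcendental (IsLocalRing.ResidueField A) ((redDataFull N A hle).red u) := by
    rw [hured]; exact transcendental_jFib (IsLocalRing.ResidueField A) N
  have hfr := chart_degree h A hℓN' hA hle hle'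
  have hlo : ∀ P : Place Kbar (FN N), ∃ P' : Place Kbar (FN N'), P'.restrict (FN N) = P :=
    fun P => exists_place_restrict_eq_of_isGen (jF N) (jF N') P
  have hlot : ∀ Q : Place (IsLocalRing.ResidueField A)
      (modularFunctionFieldFullC (IsLocalRing.ResidueField A) N),
      ∃ Q' : Place (IsLocalRing.ResidueField A)
        (modularFunctionFieldFullC (IsLocalRing.ResidueField A) N'),
        Q'.restrict (modularFunctionFieldFullC (IsLocalRing.ResidueField A) N) = Q :=
    fun Q => exists_place_restrict_eq_of_isGen (jFib (IsLocalRing.ResidueField A) N)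
      (jFib (IsLocalRing.ResidueField A) N') Q
  have hn := finrank_eq_of_chart hc (jF N) u hutr hfr
  have hr := rDesc_restrict hc H' (jF N) (jFib (IsLocalRing.ResidueField A) N) u hutr hfr hlo
  have hunram : ∀ x : FN N, x ≠ 0 → ∃ a : Kbar, a ≠ 0 ∧
      x / algebraMap Kbar (FN N) a ∈ (redDataFull N A hle).Rw ∧
      (x / algebraMap Kbar (FN N) a)⁻¹ ∈ (redDataFull N A hle).Rw :=
    Val.unramified A (modularFunctionFieldBar N) (hasGaussFrac_bar N A)
  refine ⟨rDesc H' hlo,
    isRedMap_of_restrict hc H' hn (jF N) (jFib (IsLocalRing.ResidueField A) N) hr hlot,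
    fun D hD => ?_⟩
  have hpull := mapDomain_rOf_pullback hc H' hn (jF N) (jFib (IsLocalRing.ResidueField A) N)
    hunram hr hlot D
  rw [hD, map_zero] at hpull
  exact hpull

/-- a map with the fibre formula on the whole Gauss ring is a place reduction in the sense of the
prelude. -/
theorem isPlaceReductionModL_of_isRedMap
    (hle : FresBar N A ≤ modularFunctionFieldFullC (IsLocalRing.ResidueField A) N)
    {r : Place Kbar (FN N) → Place (IsLocalRing.ResidueField A)
        (modularFunctionFieldFullC (IsLocalRing.ResidueField A) N)}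
    (hred : IsRedMap (redDataFull N A hle) r) : IsPlaceReductionModL A N r := by
  refine ⟨fun P => ?_, ?_⟩
  · rw [deg_eq_one_bar P,
      Fermat.Agent.GJ.FibreCurve.deg_eq_one_fibre N A (IsLocalRing.residue A) (r P)]
  · intro y hy hyk hne D hD Q
    have hx : (redDataFull N A hle).red ⟨⟨coeffMap A.subtype y, hy⟩,
        int_mem_Rw_full hle hy⟩ =
        (⟨coeffMap (IsLocalRing.residue A) y, hyk⟩ :
          modularFunctionFieldFullC (IsLocalRing.ResidueField A) N) :=
      Subtype.ext (red_int_full hle hy)
    have hne' : (redDataFull N A hle).red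
        ⟨⟨coeffMap A.subtype y, hy⟩, int_mem_Rw_full hle hy⟩ ≠ 0 := by
      rw [hx]
      exact fun h => hne (congrArg Subtype.val h)
    have := hred _ hne' D hD Q
    rw [this, hx]

/-- **the level descent of the place reduction**: at a level `N ∣ N'` (no condition on `N`) there
is a place reduction `r` in the sense of the prelude such that the pull-back to the level `N'` of a
degree-zero divisor killed by `r_*` reduces to zero at the level `N'`. -/
theorem exists_isPlaceReductionModL_pullBar {ℓ : ℕ} [Fact ℓ.Prime] (hℓN' : ¬ ℓ ∣ N')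
    (h2 : ℓ = 2 → 3 ∣ N') (h3 : ℓ = 3 → 2 ∣ N') (hA : A.LiesOverPrime ℓ) :
    ∃ r : Place Kbar (FN N) → Place (IsLocalRing.ResidueField A)
        (modularFunctionFieldFullC (IsLocalRing.ResidueField A) N),
      IsPlaceReductionModL A N r ∧
      IsRedMap (redDataFull N A (Res.FresBar_le_fullC N A
        (fun hd => hℓN' (hd.trans h)) hA)) r ∧
      ∀ D : Divisor.degZero (K := Kbar) (F := FN N),
        Finsupp.mapDomain r (D : Divisor Kbar (FN N)) = 0 →
          reductionModL A N' (Fermat.Agent.GJ.S37HeckePullback.pullBar h (Pic0.mk D)) = 0 := by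
  have hℓ : ℓ.Prime := Fact.out
  have hℓN : ¬ ℓ ∣ N := fun hd => hℓN' (hd.trans h)
  have h1 : FiniteResidues Kbar (FN N') := Fermat.Agent.RR.ModularBar.finiteResidues N'
  have h1' : HasPrincipalDivisors Kbar (FN N') := Fermat.Agent.RR.ModularBar.hasPrincipalDivisors N'
  have h1'' : Nonempty (Place Kbar (FN N')) := Fermat.Agent.RR.ModularBar.nonempty_place N'
  have h2' := finiteResidues_fibre (k := IsLocalRing.ResidueField A) N' A (IsLocalRing.residue A)
  have h3' := hasPrincipalDivisors_fibre' (k := IsLocalRing.ResidueField A) N' A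
    (IsLocalRing.residue A)
  have h4' := nonempty_place_fibre' (k := IsLocalRing.ResidueField A) N' A (IsLocalRing.residue A)
  obtain ⟨g, c, Hbar⟩ := Fermat.Agent.GJ.S37LSpaceGate.lSpaceGate N' hℓ hℓN' h2 h3 A hA
  set hle' := Res.FresBar_le_fullC N' A hℓN' hA with hhle'
  have H' : LSpaceHyp (redDataFull N' A hle') g c :=
    Fermat.Agent.GJ.S37BarToFull.exists_lSpaceHyp_full hℓN' hA Hbar
  obtain ⟨r, hred, hpull⟩ := exists_descended h hℓN' hA (Res.FresBar_le_fullC N A hℓN hA) hle' H'
  refine ⟨r, isPlaceReductionModL_of_isRedMap _ hred, hred, fun D hD => ?_⟩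
  have hin : ReductionInputsModL A N' := Fermat.Agent.GJ.S37Bridge.reductionInputsModL hle' H'
  have hr' : placeReductionModL hin = rOf H' :=
    Fermat.Agent.GJ.S37UniqFrac.eq_rOf (isPlaceReductionModL_placeReductionModL hin) hle' H'
  rw [Fermat.Agent.GJ.S37HeckePullback.pullBar_mk, reductionModL_mk hin]
  have hz : reductionDegZeroAlong (placeReductionModL hin)
      (isPlaceReductionModL_placeReductionModL hin).1
      ⟨Divisor.pullbackAlong (Fermat.Agent.GJ.S37HeckePullback.levelIncl h)
        (Fermat.Agent.GJ.S37HeckePullback.isIntegral_levelIncl h)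
        (D : Divisor Kbar (FN N)),
        Divisor.pullbackAlong_mem_degZero _ _
          (Fermat.Agent.GJ.S37HeckePullback.fundamentalIdentityAlong_levelIncl h) D.2⟩ = 0 := by
    apply Subtype.ext
    rw [coe_reductionDegZeroAlong, hr']
    exact hpull _ hD
  rw [hz]
  rfl

/-- **`ReductionInputsModL A N` at a level `N` below a good auxiliary level `N'`** (e.g. `N = p`,
`A` over `2` with `N' = 3p`, or `A` over `3` with `N' = 2p`). -/
theorem reductionInputsModL_of_aux {ℓ : ℕ} [Fact ℓ.Prime] (hNN' : N ∣ N') (hℓN' : ¬ ℓ ∣ N')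
    (h2 : ℓ = 2 → 3 ∣ N') (h3 : ℓ = 3 → 2 ∣ N') (hA : A.LiesOverPrime ℓ) :
    ReductionInputsModL A N := by
  have h := hNN'
  obtain ⟨r, hr, -, -⟩ := exists_isPlaceReductionModL_pullBar h hℓN' h2 h3 hA
  have := hasPrincipalDivisors_bar N
  exact ⟨r, hr, Fermat.Agent.GJ.S37Bridge.principalGeneratedByIntegral
    (Res.FresBar_le_fullC N A (fun hd => hℓN' (hd.trans h)) hA)⟩

end Fermat.Agent.GZ.Aux23.Inst

end
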